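import Fermat.Agent.F4.Shapiro.Cup

/-!
# F4 / Shapiro / ModCor : corestriction for modules (degree 2), `cor ∘ res = [G : U]`

`A` any `k[G]`-module (`k = ℤ` allowed), `U` a subgroup of finite index.

* `corC2 U A : (U × U → A) → (G × G → A)`, explicitly
  `cor y (g, h) = ∑ₓ sₓ • y (wₓ(g), w_{g⁻¹x}(h))`;
* `corC2_mem_Z2`, `corC2_mem_B2` : `cor` preserves smooth cocycles and smooth coboundaries;
* `corC2_res_sub_mem_B2` : `cor (res w) - [G : U] • w ∈ B²` for a smooth cocycle `w`.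

Everything is the case `K = A[0]` of `Shapiro/Cup.lean`.
-/

set_option autoImplicit false

open CategoryTheory groupCohomology

namespace Fermat.Agent.F4

variable {k : Type} [CommRing k]

variable {G : Type} [Group G]

section

variable (U : Subgroup G) [Fintype (G ⧸ U)] (A : Rep.{0} k G)

/-- The total 2-cochain `(y, 0)` of `A[0]` over `U`. -/
def deg0T2 (y : U × U → Rep.res U.subtype A) : T2 ((Cx.deg0 A).res U.subtype) := (y, 0)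

/-- Corestriction of 2-cochains with values in a module. -/
noncomputable def corC2 (y : U × U → Rep.res U.subtype A) : G × G → A :=
  (corT2 U (Cx.deg0 A) (deg0T2 U A y)).1

lemma corC2_apply (y : U × U → Rep.res U.subtype A) (p : G × G) :
    corC2 U A y p = ∑ x : G ⧸ U, A.ρ (shSec U x) (y (shW U x p.1, shW U (p.1⁻¹ • x) p.2)) :=
  corT2_fst_aux U (Cx.deg0 A) y 0 p

lemma corC2_add (y y' : U × U → Rep.res U.subtype A) :
    corC2 U A (y + y') = corC2 U A y + corC2 U A y' := by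
  funext p
  show corC2 U A (y + y') p = corC2 U A y p + corC2 U A y' p
  rw [corC2_apply, corC2_apply, corC2_apply, ← Finset.sum_add_distrib]
  exact Finset.sum_congr rfl fun x _ => map_add _ _ _

lemma corC2_smul (r : k) (y : U × U → Rep.res U.subtype A) :
    corC2 U A (r • y) = r • corC2 U A y := by
  funext p
  show corC2 U A (r • y) p = r • corC2 U A y p
  rw [corC2_apply, corC2_apply, Finset.smul_sum]
  exact Finset.sum_congr rfl fun x _ => map_smul _ _ _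

lemma corC2_zsmul (n : ℤ) (y : U × U → Rep.res U.subtype A) :
    corC2 U A (n • y) = n • corC2 U A y := by
  funext p
  show corC2 U A (n • y) p = n • corC2 U A y p
  rw [corC2_apply, corC2_apply, Finset.smul_sum]
  exact Finset.sum_congr rfl fun x _ => map_zsmul _ _ _

variable {𝓤 : Levels G}

omit [Fintype (G ⧸ U)] in
lemma deg0T2_mem_ZZ2 {y : U × U → Rep.res U.subtype A}
    (hy : y ∈ Z2 (𝓤.sub U) (Rep.res U.subtype A)) :
    deg0T2 U A y ∈ ZZ2 (𝓤.sub U) ((Cx.deg0 A).res U.subtype) := by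
  obtain ⟨V, hV⟩ := (𝓤.sub U).nonempty
  refine (mem_ZZ2_iff (𝓤.sub U) ((Cx.deg0 A).res U.subtype) (deg0T2 U A y)).2
    ⟨hy.1, rfl, hy.2, ⟨V, hV, fun _ _ _ => rfl⟩⟩

omit [Fintype (G ⧸ U)] in
lemma deg0T2_mem_BB2 {y : U × U → Rep.res U.subtype A}
    (hy : y ∈ B2 (𝓤.sub U) (Rep.res U.subtype A)) :
    deg0T2 U A y ∈ BB2 (𝓤.sub U) ((Cx.deg0 A).res U.subtype) := by
  obtain ⟨e, he, hey⟩ := hy
  refine (mem_BB2_iff (𝓤.sub U) ((Cx.deg0 A).res U.subtype) (deg0T2 U A y)).2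
    ⟨(e, 0), he, Prod.ext hey rfl⟩

lemma fst_mem_Z2_of_deg0 {z : T2 (Cx.deg0 A)} (hz : z ∈ ZZ2 𝓤 (Cx.deg0 A)) : z.1 ∈ Z2 𝓤 A := by
  obtain ⟨h1, -, h3, -⟩ := (mem_ZZ2_iff 𝓤 (Cx.deg0 A) z).1 hz
  exact ⟨h1, h3⟩

lemma fst_mem_B2_of_deg0 {z : T2 (Cx.deg0 A)} (hz : z ∈ BB2 𝓤 (Cx.deg0 A)) : z.1 ∈ B2 𝓤 A := by
  obtain ⟨cd, hcd, rfl⟩ := (mem_BB2_iff 𝓤 (Cx.deg0 A) z).1 hz
  exact ⟨cd.1, hcd, rfl⟩

lemma deg0_mem_ZZ2 {w : G × G → A} (hw : w ∈ Z2 𝓤 A) :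
    ((w, 0) : T2 (Cx.deg0 A)) ∈ ZZ2 𝓤 (Cx.deg0 A) := by
  obtain ⟨V, hV⟩ := 𝓤.nonempty
  exact (mem_ZZ2_iff 𝓤 (Cx.deg0 A) _).2 ⟨hw.1, rfl, hw.2, ⟨V, hV, fun _ _ _ => rfl⟩⟩

lemma corC2_mem_Z2 (hU : 𝓤.IsOpen U) {y : U × U → Rep.res U.subtype A}
    (hy : y ∈ Z2 (𝓤.sub U) (Rep.res U.subtype A)) : corC2 U A y ∈ Z2 𝓤 A :=
  fst_mem_Z2_of_deg0 A (corT2_mem_ZZ2 U (Cx.deg0 A) hU (deg0T2_mem_ZZ2 U A hy))

lemma corC2_mem_B2 (hU : 𝓤.IsOpen U) {y : U × U → Rep.res U.subtype A}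
    (hy : y ∈ B2 (𝓤.sub U) (Rep.res U.subtype A)) : corC2 U A y ∈ B2 𝓤 A :=
  fst_mem_B2_of_deg0 A (corT2_mem_BB2 U (Cx.deg0 A) hU (deg0T2_mem_BB2 U A hy))

/-- Restriction of a 2-cochain to `U`. -/
def resC2 (w : G × G → A) : U × U → Rep.res U.subtype A := fun q => w ((q.1 : G), (q.2 : G))

omit [Fintype (G ⧸ U)] in
lemma resC2_mem_Z2 {w : G × G → A} (hw : w ∈ Z2 𝓤 A) :
    resC2 U A w ∈ Z2 (𝓤.sub U) (Rep.res U.subtype A) := by
  obtain ⟨h1, -, h3, -⟩ := (mem_ZZ2_iff (𝓤.sub U) ((Cx.deg0 A).res U.subtype) _).1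
    (resT2_mem_ZZ2 U.subtype 𝓤 (Cx.deg0 A) (deg0_mem_ZZ2 A hw))
  exact ⟨h1, h3⟩

/-- **`cor ∘ res = [G : U]`** on smooth 2-cocycles of a module, modulo smooth coboundaries. -/
theorem corC2_res_sub_mem_B2 (hU : 𝓤.IsOpen U) {w : G × G → A} (hw : w ∈ Z2 𝓤 A) :
    corC2 U A (resC2 U A w) - Fintype.card (G ⧸ U) • w ∈ B2 𝓤 A :=
  fst_mem_B2_of_deg0 A (corT2_res_sub_mem_BB2 U (Cx.deg0 A) hU (deg0_mem_ZZ2 A hw))

/-- If the restriction of a smooth cocycle `w` to `U` is a smooth coboundary, then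
`[G : U] • w` is a smooth coboundary. -/
theorem card_smul_mem_B2_of_res (hU : 𝓤.IsOpen U) {w : G × G → A} (hw : w ∈ Z2 𝓤 A)
    (hres : resC2 U A w ∈ B2 (𝓤.sub U) (Rep.res U.subtype A)) :
    Fintype.card (G ⧸ U) • w ∈ B2 𝓤 A := by
  have h1 := corC2_res_sub_mem_B2 U A hU hw
  have h2 := corC2_mem_B2 U A hU hres
  have h3 := (B2 𝓤 A).sub_mem h2 h1
  rwa [sub_sub_cancel] at h3

end

end Fermat.Agent.F4
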