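import Fermat.Agent.F4.Shapiro.Cup

/-!
# F4 / Shapiro / Reduce : the duality properties for `k[G/U]` are statements over `U`

`U` open in `G`, `K` a 2-term complex, `inv : HH²(G, K) → k`.  With `inv_U := inv ∘ cor`:

* `A2Inj 𝓤 K k[G/U] inv  ↔  A2InjU`  : `inv_U : HH²(U, K) → k` is injective;
* `A1Surj 𝓤 K k[G/U] inv ↔  A1SurjU` : every linear form on `Hom_sm(U, k)` is
  `χ ↦ inv_U (z ∪ χ)` for a smooth total 1-cocycle `z` of `K` over `U`;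
* `A1Inj 𝓤 K k[G/U] inv  ↔  A1InjU`  : `inv_U (z ∪ χ) = 0` for all `χ` implies `z ∈ BB¹`;
* `finite_H1sm_permRep` : `H¹(G, k[G/U])` is a quotient of `Hom_sm(U, k)`.
-/

set_option autoImplicit false

open CategoryTheory groupCohomology

namespace Fermat.Agent.F4

variable {k G : Type} [CommRing k] [Group G]

lemma Levels.IsOpen.finite_quotient {𝓤 : Levels G} {U : Subgroup G} (hU : 𝓤.IsOpen U) :
    Finite (G ⧸ U) := by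
  obtain ⟨V, hV, hVU⟩ := hU
  have := 𝓤.finiteIndex V hV
  have hfi : U.FiniteIndex := Subgroup.finiteIndex_of_le hVU
  exact Subgroup.finite_quotient_of_finiteIndex

section

variable (U : Subgroup G) (K : Cx k G) {𝓤 : Levels G}

/-! ### The pairing `cupU` over `U` -/

lemma cupU_mem_ZZ2_aux (a : U → Rep.res U.subtype K.K0) (b : Rep.res U.subtype K.K1)
    (hz : ((a, b) : T1 (K.res U.subtype)) ∈ ZZ1 (𝓤.sub U) (K.res U.subtype))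
    {χ : U → Rep.trivial k ↥U k} (hχ : χ ∈ Z1 (𝓤.sub U) (Rep.trivial k ↥U k)) :
    cupU U K (a, b) χ ∈ ZZ2 (𝓤.sub U) (K.res U.subtype) := by
  obtain ⟨h1, h2, h3⟩ := (mem_ZZ1_iff (𝓤.sub U) (K.res U.subtype) (a, b)).1 hz
  have hχ1 : ∀ u v : U, (χ (u * v) : k) = (χ v : k) + (χ u : k) := fun u v =>
    (mem_cocycles₁_iff χ).1 hχ.1 u v
  have ha : ∀ u v : U, a (u * v) = (Rep.res U.subtype K.K0).ρ u (a v) + a u := fun u v =>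
    (mem_cocycles₁_iff a).1 h1 u v
  have hd : ∀ u : U, K.d (a u) = (Rep.res U.subtype K.K1).ρ u b - b := fun u => congrFun h2 u
  obtain ⟨V, hV, hVa'⟩ := h3
  have hVa : ∀ g s : U, s ∈ V → a (g * s) = a g := hVa'
  obtain ⟨W, hW, hWχ⟩ := hχ.2
  obtain ⟨X, hX, hXle⟩ := (𝓤.sub U).directed V hV W hW
  refine (mem_ZZ2_iff (𝓤.sub U) (K.res U.subtype) _).2 ⟨?_, ?_, ?_, ?_⟩
  · funext q
    obtain ⟨u, v, w⟩ := q
    show (Rep.res U.subtype K.K0).ρ u ((χ w : k) • a v) - (χ w : k) • a (u * v)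
      + (χ (v * w) : k) • a u - (χ v : k) • a u = 0
    rw [ha u v, hχ1 v w, map_smul, smul_add, add_smul]
    abel
  · funext q
    obtain ⟨u, v⟩ := q
    show K.d ((χ v : k) • a u)
      = (Rep.res U.subtype K.K1).ρ u ((χ v : k) • b) - (χ (u * v) : k) • b + (χ u : k) • b
    rw [map_smul, map_smul, hd u, hχ1 u v, smul_sub, add_smul]
    abel
  · refine ⟨X, hX, fun g g' s s' hs hs' => ?_⟩
    show (χ (g' * s') : k) • a (g * s) = (χ g' : k) • a g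
    rw [hVa g s (hXle hs).1, hWχ g' s' (hXle hs').2]
  · refine ⟨W, hW, fun g s hs => ?_⟩
    show (χ (g * s) : k) • b = (χ g : k) • b
    rw [hWχ g s hs]

lemma cupU_mem_ZZ2 {z : T1 (K.res U.subtype)} (hz : z ∈ ZZ1 (𝓤.sub U) (K.res U.subtype))
    {χ : U → Rep.trivial k ↥U k} (hχ : χ ∈ Z1 (𝓤.sub U) (Rep.trivial k ↥U k)) :
    cupU U K z χ ∈ ZZ2 (𝓤.sub U) (K.res U.subtype) :=
  cupU_mem_ZZ2_aux U K z.1 z.2 hz hχ

lemma cupU_add_left (z z' : T1 (K.res U.subtype)) (χ : U → Rep.trivial k ↥U k) :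
    cupU U K (z + z') χ = cupU U K z χ + cupU U K z' χ := by
  refine Prod.ext ?_ ?_
  · funext q
    exact smul_add _ _ _
  · funext u
    exact smul_add _ _ _

lemma cupU_add_right (z : T1 (K.res U.subtype)) (χ χ' : U → Rep.trivial k ↥U k) :
    cupU U K z (χ + χ') = cupU U K z χ + cupU U K z χ' := by
  refine Prod.ext ?_ ?_
  · funext q
    exact add_smul _ _ _
  · funext u
    exact add_smul _ _ _

lemma cupU_smul_left (r : k) (z : T1 (K.res U.subtype)) (χ : U → Rep.trivial k ↥U k) :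
    cupU U K (r • z) χ = r • cupU U K z χ := by
  refine Prod.ext ?_ ?_
  · funext q
    exact smul_comm _ _ _
  · funext u
    exact smul_comm _ _ _

lemma cupU_smul_right (r : k) (z : T1 (K.res U.subtype)) (χ : U → Rep.trivial k ↥U k) :
    cupU U K z (r • χ) = r • cupU U K z χ := by
  refine Prod.ext ?_ ?_
  · funext q
    exact smul_assoc r (χ q.2 : k) (z.1 q.1)
  · funext u
    exact smul_assoc r (χ u : k) z.2

/-- `z ∪ χ` on smooth cocycles over `U`. -/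
def cupUZ (z : ↥(ZZ1 (𝓤.sub U) (K.res U.subtype)))
    (χ : ↥(Z1 (𝓤.sub U) (Rep.trivial k ↥U k))) : ↥(ZZ2 (𝓤.sub U) (K.res U.subtype)) :=
  ⟨cupU U K z.1 χ.1, cupU_mem_ZZ2 U K z.2 χ.2⟩

/-! ### Degree 1 for the module `k[G/U]` -/

/-- `χ ↦ tr χ` on smooth cocycles. -/
noncomputable def trZ1 (hU : 𝓤.IsOpen U) :
    ↥(Z1 (𝓤.sub U) (Rep.trivial k ↥U k)) →ₗ[k] ↥(Z1 𝓤 (permRep k U)) where
  toFun χ := ⟨trN1 U χ.1, trN1_mem_Z1 U hU χ.2⟩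
  map_add' χ χ' := Subtype.ext (trN1_add U χ.1 χ'.1)
  map_smul' r χ := Subtype.ext (trN1_smul U r χ.1)

/-- `y ↦ sh y` on smooth cocycles. -/
def shZ1 (𝓤 : Levels G) : ↥(Z1 𝓤 (permRep k U)) →ₗ[k] ↥(Z1 (𝓤.sub U) (Rep.trivial k ↥U k)) where
  toFun y := ⟨shN1 U y.1, shN1_mem_Z1 U 𝓤 y.2⟩
  map_add' y y' := Subtype.ext (shN1_add U y.1 y'.1)
  map_smul' r y := Subtype.ext (shN1_smul U r y.1)

lemma shZ1_trZ1 (hU : 𝓤.IsOpen U) (χ : ↥(Z1 (𝓤.sub U) (Rep.trivial k ↥U k))) :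
    shZ1 U 𝓤 (trZ1 U hU χ) = χ :=
  Subtype.ext (shN1_trN1 U χ.1)

lemma H1smπ_trZ1_shZ1 (hU : 𝓤.IsOpen U) (y : ↥(Z1 𝓤 (permRep k U))) :
    H1smπ 𝓤 (permRep k U) (trZ1 U hU (shZ1 U 𝓤 y)) = H1smπ 𝓤 (permRep k U) y := by
  symm
  rw [← sub_eq_zero, ← map_sub, Submodule.mkQ_apply, Submodule.Quotient.mk_eq_zero,
    Submodule.mem_comap]
  exact sub_trN1_shN1_mem_B1 U y.2

/-- The Shapiro isomorphism `H¹(G, k[G/U]) → Hom_sm(U, k)`, as a map. -/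
noncomputable def shH1 (𝓤 : Levels G) :
    H1sm 𝓤 (permRep k U) →ₗ[k] ↥(Z1 (𝓤.sub U) (Rep.trivial k ↥U k)) :=
  Submodule.liftQ _ (shZ1 U 𝓤) fun y hy => by
    obtain ⟨n, hn⟩ := hy
    refine LinearMap.mem_ker.2 (Subtype.ext ?_)
    show shN1 U y.1 = 0
    have hn' : δ0 (permRep k U) n = y.1 := hn
    rw [← hn']
    exact shN1_δ0 U n

lemma shH1_mk (y : ↥(Z1 𝓤 (permRep k U))) :
    shH1 U 𝓤 (H1smπ 𝓤 (permRep k U) y) = shZ1 U 𝓤 y := rfl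

/-- The inverse of the Shapiro isomorphism in degree 1. -/
noncomputable def trH1 (hU : 𝓤.IsOpen U) :
    ↥(Z1 (𝓤.sub U) (Rep.trivial k ↥U k)) →ₗ[k] H1sm 𝓤 (permRep k U) :=
  (H1smπ 𝓤 (permRep k U)).comp (trZ1 U hU)

lemma trH1_shH1 (hU : 𝓤.IsOpen U) (c : H1sm 𝓤 (permRep k U)) :
    trH1 U hU (shH1 U 𝓤 c) = c := by
  obtain ⟨y, rfl⟩ := Submodule.mkQ_surjective _ c
  exact H1smπ_trZ1_shZ1 U hU y

lemma shH1_trH1 (hU : 𝓤.IsOpen U) (χ : ↥(Z1 (𝓤.sub U) (Rep.trivial k ↥U k))) :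
    shH1 U 𝓤 (trH1 U hU χ) = χ :=
  shZ1_trZ1 U hU χ

lemma trH1_surjective (hU : 𝓤.IsOpen U) : Function.Surjective (trH1 (k := k) U hU) :=
  fun c => ⟨shH1 U 𝓤 c, trH1_shH1 U hU c⟩

/-- `H¹(G, k[G/U]) ≃ Hom_sm(U, k)`. -/
noncomputable def shH1Equiv (hU : 𝓤.IsOpen U) :
    H1sm 𝓤 (permRep k U) ≃ₗ[k] ↥(Z1 (𝓤.sub U) (Rep.trivial k ↥U k)) :=
  LinearEquiv.ofLinearMap (shH1 U 𝓤) (trH1 U hU)
    (LinearMap.ext fun χ => shH1_trH1 U hU χ) (LinearMap.ext fun c => trH1_shH1 U hU c)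

theorem finite_H1sm_permRep (hU : 𝓤.IsOpen U)
    (h : Module.Finite k ↥(Z1 (𝓤.sub U) (Rep.trivial k ↥U k))) :
    Module.Finite k (H1sm 𝓤 (permRep k U)) :=
  Module.Finite.of_surjective (trH1 U hU) (trH1_surjective U hU)

end

section

variable (U : Subgroup G) [Fintype (G ⧸ U)] (K : Cx k G) {𝓤 : Levels G}

/-! ### Corestriction on classes, `inv_U = inv ∘ cor` -/

/-- Corestriction on smooth total 2-cocycles. -/
noncomputable def corZZ2 (hU : 𝓤.IsOpen U) :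
    ↥(ZZ2 (𝓤.sub U) (K.res U.subtype)) →ₗ[k] ↥(ZZ2 𝓤 K) where
  toFun y := ⟨corT2 U K y.1, corT2_mem_ZZ2 U K hU y.2⟩
  map_add' y y' := Subtype.ext (corT2_add U K y.1 y'.1)
  map_smul' r y := Subtype.ext (corT2_smul U K r y.1)

/-- Corestriction `HH²(U, K) → HH²(G, K)`. -/
noncomputable def corHH2 (hU : 𝓤.IsOpen U) :
    HH2 (𝓤.sub U) (K.res U.subtype) →ₗ[k] HH2 𝓤 K :=
  Submodule.mapQ _ _ (corZZ2 U K hU) fun _ hy => corT2_mem_BB2 U K hU hy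

lemma corHH2_mk (hU : 𝓤.IsOpen U) (y : ↥(ZZ2 (𝓤.sub U) (K.res U.subtype))) :
    corHH2 U K hU (HH2π (𝓤.sub U) (K.res U.subtype) y) = HH2π 𝓤 K (corZZ2 U K hU y) := rfl

variable (inv : HH2 𝓤 K →ₗ[k] k)

/-- `inv_U = inv ∘ cor : HH²(U, K) → k` is injective. -/
def A2InjU (hU : 𝓤.IsOpen U) : Prop :=
  ∀ y : ↥(ZZ2 (𝓤.sub U) (K.res U.subtype)),
    inv (HH2π 𝓤 K (corZZ2 U K hU y)) = 0 →
      (y : T2 (K.res U.subtype)) ∈ BB2 (𝓤.sub U) (K.res U.subtype)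

/-- Every linear form on `Hom_sm(U, k)` is `χ ↦ inv_U (z ∪ χ)`. -/
def A1SurjU (hU : 𝓤.IsOpen U) : Prop :=
  ∀ φ : ↥(Z1 (𝓤.sub U) (Rep.trivial k ↥U k)) →ₗ[k] k,
    ∃ z : ↥(ZZ1 (𝓤.sub U) (K.res U.subtype)),
      ∀ χ : ↥(Z1 (𝓤.sub U) (Rep.trivial k ↥U k)),
        inv (HH2π 𝓤 K (corZZ2 U K hU (cupUZ U K z χ))) = φ χ

/-- `inv_U (z ∪ χ) = 0` for all `χ ∈ Hom_sm(U, k)` implies that `z` is a coboundary. -/
def A1InjU (hU : 𝓤.IsOpen U) : Prop :=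
  ∀ z : ↥(ZZ1 (𝓤.sub U) (K.res U.subtype)),
    (∀ χ : ↥(Z1 (𝓤.sub U) (Rep.trivial k ↥U k)),
        inv (HH2π 𝓤 K (corZZ2 U K hU (cupUZ U K z χ))) = 0) →
      (z : T1 (K.res U.subtype)) ∈ BB1 (K.res U.subtype)

/-! ### Degree 2 -/

lemma HH2π_cupZ2_permOne (hU : 𝓤.IsOpen U) (z : ↥(ZZ2 𝓤 (homCx (permRep k U) K))) :
    HH2π 𝓤 K (cupZ2 𝓤 K (permRep k U) z (permOne U) (permRep_ρ_permOne U))
      = HH2π 𝓤 K (corZZ2 U K hU ⟨shT2 U K z.1, shT2_mem_ZZ2 U K 𝓤 z.2⟩) :=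
  (HH2π_eq_iff 𝓤 K _ _).2 (cup2_sub_corT2_sh_mem_BB2 U K hU z.2)

theorem a2Inj_permRep_of_U (hU : 𝓤.IsOpen U) (h : A2InjU U K inv hU) :
    A2Inj 𝓤 K (permRep k U) inv := by
  intro z hz
  have h1 := hz (permOne U) (permRep_ρ_permOne U)
  rw [HH2π_cupZ2_permOne U K hU z] at h1
  exact shapiro_inj2 U K hU z.2 (h _ h1)

theorem a2InjU_of_permRep (hU : 𝓤.IsOpen U) (h : A2Inj 𝓤 K (permRep k U) inv) :
    A2InjU U K inv hU := by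
  intro y hy
  have hB := h ⟨trT2 U K y.1, trT2_mem_ZZ2 U K hU y.2⟩ (fun n hn => by
    have e : HH2π 𝓤 K (cupZ2 𝓤 K (permRep k U) ⟨trT2 U K y.1, trT2_mem_ZZ2 U K hU y.2⟩ n hn)
        = ((n : (G ⧸ U) → k) (shBase U)) • HH2π 𝓤 K (corZZ2 U K hU y) := by
      rw [← map_smul]
      refine congrArg (HH2π 𝓤 K) (Subtype.ext ?_)
      show cup2 (permRep k U) K (trT2 U K y.1) n
        = ((n : (G ⧸ U) → k) (shBase U)) • corT2 U K y.1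
      conv_lhs => rw [permRep_invariant_eq U n hn]
      exact cup2_smul_right K (permRep k U) _ _ _
    rw [e, map_smul, hy, smul_zero])
  have := shT2_mem_BB2 U K 𝓤 hB
  rwa [shT2_trT2] at this

theorem a2Inj_permRep_iff (hU : 𝓤.IsOpen U) :
    A2Inj 𝓤 K (permRep k U) inv ↔ A2InjU U K inv hU :=
  ⟨a2InjU_of_permRep U K inv hU, a2Inj_permRep_of_U U K inv hU⟩

/-! ### Degree 1 -/

/-- (C2) on classes: `[z ∪ y] = [cor (sh z ∪ sh y)]`. -/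
lemma HH2π_cupZ1_perm (hU : 𝓤.IsOpen U) (z : ↥(ZZ1 𝓤 (homCx (permRep k U) K)))
    (y : ↥(Z1 𝓤 (permRep k U))) :
    HH2π 𝓤 K (cupZ1 𝓤 K (permRep k U) (permRep_smooth 𝓤 hU) (permRep_finite 𝓤 hU) z y)
      = HH2π 𝓤 K (corZZ2 U K hU
          (cupUZ U K ⟨shT1 U K z.1, shT1_mem_ZZ1 U K 𝓤 z.2⟩ (shZ1 U 𝓤 y))) :=
  (HH2π_eq_iff 𝓤 K _ _).2 (cup1_sub_corT2_cupU_mem_BB2 U K hU z.2 y.2)

theorem a1Surj_permRep_of_U (hU : 𝓤.IsOpen U) (h : A1SurjU U K inv hU) :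
    A1Surj 𝓤 K (permRep k U) inv (permRep_smooth 𝓤 hU) (permRep_finite 𝓤 hU) := by
  intro φ
  obtain ⟨z', hz'⟩ := h (φ.comp (trH1 U hU))
  refine ⟨⟨trT1 U K z'.1, trT1_mem_ZZ1 U K hU z'.2⟩, fun y => ?_⟩
  rw [HH2π_cupZ1_perm U K hU]
  have e : (⟨shT1 U K (trT1 U K z'.1), shT1_mem_ZZ1 U K 𝓤 (trT1_mem_ZZ1 U K hU z'.2)⟩
      : ↥(ZZ1 (𝓤.sub U) (K.res U.subtype))) = z' := Subtype.ext (shT1_trT1 U K z'.1)
  have e2 := hz' (shZ1 U 𝓤 y)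
  rw [LinearMap.comp_apply] at e2
  have e3 : trH1 U hU (shZ1 U 𝓤 y) = H1smπ 𝓤 (permRep k U) y := H1smπ_trZ1_shZ1 U hU y
  rw [e3] at e2
  rw [← e2]
  exact congrArg (fun w => inv (HH2π 𝓤 K (corZZ2 U K hU (cupUZ U K w (shZ1 U 𝓤 y))))) e

theorem a1SurjU_of_permRep (hU : 𝓤.IsOpen U)
    (h : A1Surj 𝓤 K (permRep k U) inv (permRep_smooth 𝓤 hU) (permRep_finite 𝓤 hU)) :
    A1SurjU U K inv hU := by
  intro φ'
  obtain ⟨z, hz⟩ := h (φ'.comp (shH1 U 𝓤))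
  refine ⟨⟨shT1 U K z.1, shT1_mem_ZZ1 U K 𝓤 z.2⟩, fun χ => ?_⟩
  have e := hz (trZ1 U hU χ)
  rw [HH2π_cupZ1_perm U K hU, LinearMap.comp_apply, shH1_mk, shZ1_trZ1] at e
  exact e

theorem a1Surj_permRep_iff (hU : 𝓤.IsOpen U) :
    A1Surj 𝓤 K (permRep k U) inv (permRep_smooth 𝓤 hU) (permRep_finite 𝓤 hU)
      ↔ A1SurjU U K inv hU :=
  ⟨a1SurjU_of_permRep U K inv hU, a1Surj_permRep_of_U U K inv hU⟩

theorem a1Inj_permRep_of_U (hU : 𝓤.IsOpen U) (h : A1InjU U K inv hU) :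
    A1Inj 𝓤 K (permRep k U) inv (permRep_smooth 𝓤 hU) (permRep_finite 𝓤 hU) := by
  intro z hz
  refine shapiro_inj1 U K z.2 (h ⟨shT1 U K z.1, shT1_mem_ZZ1 U K 𝓤 z.2⟩ fun χ => ?_)
  have e := hz (trZ1 U hU χ)
  rw [HH2π_cupZ1_perm U K hU, shZ1_trZ1] at e
  exact e

theorem a1InjU_of_permRep (hU : 𝓤.IsOpen U)
    (h : A1Inj 𝓤 K (permRep k U) inv (permRep_smooth 𝓤 hU) (permRep_finite 𝓤 hU)) :
    A1InjU U K inv hU := by
  intro z' hz'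
  have hB := h ⟨trT1 U K z'.1, trT1_mem_ZZ1 U K hU z'.2⟩ (fun y => by
    rw [HH2π_cupZ1_perm U K hU]
    have e : (⟨shT1 U K (trT1 U K z'.1), shT1_mem_ZZ1 U K 𝓤 (trT1_mem_ZZ1 U K hU z'.2)⟩
        : ↥(ZZ1 (𝓤.sub U) (K.res U.subtype))) = z' := Subtype.ext (shT1_trT1 U K z'.1)
    rw [← hz' (shZ1 U 𝓤 y)]
    exact congrArg (fun w => inv (HH2π 𝓤 K (corZZ2 U K hU (cupUZ U K w (shZ1 U 𝓤 y))))) e)
  have := shT1_mem_BB1 U K hB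
  rwa [shT1_trT1] at this

theorem a1Inj_permRep_iff (hU : 𝓤.IsOpen U) :
    A1Inj 𝓤 K (permRep k U) inv (permRep_smooth 𝓤 hU) (permRep_finite 𝓤 hU)
      ↔ A1InjU U K inv hU :=
  ⟨a1InjU_of_permRep U K inv hU, a1Inj_permRep_of_U U K inv hU⟩

end

end Fermat.Agent.F4
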