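import Fermat.Agent.F4.Shapiro.Reduce

/-!
# F4 / Shapiro / R2 : the duality properties for `k[G/U]` from dependence and nondegeneracy

`k` a field, `U` open in `G` with `[G : U]` invertible in `k`, `inv : HH²(G, K) → k` nonzero.

* `a2Inj_permRep_of_dep` : if any two classes of `HH²(U, K)` are linearly dependent, then
  `A2Inj 𝓤 K k[G/U] inv` (uses `cor ∘ res = [G : U]`);
* `a1Surj_permRep_of_nondeg` : if moreover `Hom_sm(U, k)` is finite-dimensional and for every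
  `χ ≠ 0` there is `z` with `z ∪ χ` not a coboundary over `U`, then `A1Surj 𝓤 K k[G/U] inv`;
* `a1Inj_permRep_of_nondeg` : if `z ∪ χ` is a coboundary over `U` for all `χ` only when `z` is a
  coboundary, then `A1Inj 𝓤 K k[G/U] inv`.
-/

set_option autoImplicit false

open CategoryTheory groupCohomology

namespace Fermat.Agent.F4

section

variable {k G : Type} [Field k] [Group G]

/-- Any two classes of `HH²` are linearly dependent (`dim HH² ≤ 1`). -/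
def DepHH2 (𝓥 : Levels G) (L : Cx k G) : Prop :=
  ∀ y₁ y₂ : ↥(ZZ2 𝓥 L), ∃ a b : k, (a ≠ 0 ∨ b ≠ 0) ∧
    a • (y₁ : T2 L) + b • (y₂ : T2 L) ∈ BB2 𝓥 L

variable (U : Subgroup G) [Fintype (G ⧸ U)] (K : Cx k G) {𝓤 : Levels G}

/-- For every nonzero `χ ∈ Hom_sm(U, k)` there is `z` with `z ∪ χ` not a coboundary. -/
def CupNondegRight (𝓤 : Levels G) : Prop :=
  ∀ χ : ↥(Z1 (𝓤.sub U) (Rep.trivial k ↥U k)), χ ≠ 0 →
    ∃ z : ↥(ZZ1 (𝓤.sub U) (K.res U.subtype)),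
      cupU U K z.1 χ.1 ∉ BB2 (𝓤.sub U) (K.res U.subtype)

/-- If `z ∪ χ` is a coboundary for all `χ ∈ Hom_sm(U, k)`, then `z` is a coboundary. -/
def CupNondegLeft (𝓤 : Levels G) : Prop :=
  ∀ z : ↥(ZZ1 (𝓤.sub U) (K.res U.subtype)),
    (∀ χ : ↥(Z1 (𝓤.sub U) (Rep.trivial k ↥U k)),
      cupU U K z.1 χ.1 ∈ BB2 (𝓤.sub U) (K.res U.subtype)) →
      (z : T1 (K.res U.subtype)) ∈ BB1 (K.res U.subtype)

variable (inv : HH2 𝓤 K →ₗ[k] k)

/-- `inv (cor (res c)) = [G : U] inv c`. -/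
lemma inv_cor_res (hU : 𝓤.IsOpen U) (c : ↥(ZZ2 𝓤 K)) :
    inv (HH2π 𝓤 K (corZZ2 U K hU ⟨resT2 U.subtype K c.1, resT2_mem_ZZ2 U.subtype 𝓤 K c.2⟩))
      = (Fintype.card (G ⧸ U) : k) * inv (HH2π 𝓤 K c) := by
  have h : HH2π 𝓤 K (corZZ2 U K hU ⟨resT2 U.subtype K c.1, resT2_mem_ZZ2 U.subtype 𝓤 K c.2⟩)
      = HH2π 𝓤 K (Fintype.card (G ⧸ U) • c) :=
    (HH2π_eq_iff 𝓤 K _ _).2 (corT2_res_sub_mem_BB2 U K hU c.2)
  rw [h, map_nsmul, map_nsmul, nsmul_eq_mul]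

/-- (R2-a) over `U`. -/
theorem a2InjU_of_dep (hU : 𝓤.IsOpen U) (hidx : (Fintype.card (G ⧸ U) : k) ≠ 0)
    (hdep : DepHH2 (𝓤.sub U) (K.res U.subtype))
    (hinv : ∃ c : ↥(ZZ2 𝓤 K), inv (HH2π 𝓤 K c) ≠ 0) : A2InjU U K inv hU := by
  obtain ⟨c, hc⟩ := hinv
  intro y hy
  obtain ⟨a, b, hab, hB⟩ :=
    hdep y ⟨resT2 U.subtype K c.1, resT2_mem_ZZ2 U.subtype 𝓤 K c.2⟩
  have h0 : HH2π (𝓤.sub U) (K.res U.subtype)
      (a • y + b • ⟨resT2 U.subtype K c.1, resT2_mem_ZZ2 U.subtype 𝓤 K c.2⟩) = 0 :=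
    (HH2π_eq_zero_iff _ _ _).2 hB
  have h1 := congrArg (fun x => inv (corHH2 U K hU x)) h0
  simp only [map_add, map_smul, map_zero, corHH2_mk] at h1
  rw [hy, inv_cor_res U K inv hU c, smul_zero, zero_add, smul_eq_mul] at h1
  have hb : b = 0 := by
    rcases mul_eq_zero.1 h1 with h | h
    · exact h
    · exact absurd h (mul_ne_zero hidx hc)
  have ha : a ≠ 0 := by
    rcases hab with h | h
    · exact h
    · exact absurd hb h
  rw [hb, zero_smul, add_zero] at hB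
  have := (BB2 (𝓤.sub U) (K.res U.subtype)).smul_mem a⁻¹ hB
  rwa [smul_smul, inv_mul_cancel₀ ha, one_smul] at this

/-- (R2-a): `A2Inj` for `k[G/U]` from `dim HH²(U, K) ≤ 1`, `inv ≠ 0` and `[G : U] ≠ 0` in `k`. -/
theorem a2Inj_permRep_of_dep (hU : 𝓤.IsOpen U) (hidx : (Fintype.card (G ⧸ U) : k) ≠ 0)
    (hdep : DepHH2 (𝓤.sub U) (K.res U.subtype))
    (hinv : ∃ c : ↥(ZZ2 𝓤 K), inv (HH2π 𝓤 K c) ≠ 0) : A2Inj 𝓤 K (permRep k U) inv :=
  a2Inj_permRep_of_U U K inv hU (a2InjU_of_dep U K inv hU hidx hdep hinv)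

/-- The pairing `(z, χ) ↦ inv_U (z ∪ χ)` as a linear map `ZZ¹(U, K) → Hom_sm(U, k)^*`. -/
noncomputable def pairU (hU : 𝓤.IsOpen U) :
    ↥(ZZ1 (𝓤.sub U) (K.res U.subtype)) →ₗ[k]
      Module.Dual k ↥(Z1 (𝓤.sub U) (Rep.trivial k ↥U k)) where
  toFun z :=
    { toFun := fun χ => inv (HH2π 𝓤 K (corZZ2 U K hU (cupUZ U K z χ)))
      map_add' := fun χ χ' => by
        rw [← map_add, ← map_add, ← map_add]
        exact congrArg (fun w => inv (HH2π 𝓤 K (corZZ2 U K hU w)))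
          (Subtype.ext (cupU_add_right U K z.1 χ.1 χ'.1))
      map_smul' := fun r χ => by
        rw [RingHom.id_apply, ← map_smul, ← map_smul, ← map_smul]
        exact congrArg (fun w => inv (HH2π 𝓤 K (corZZ2 U K hU w)))
          (Subtype.ext (cupU_smul_right U K r z.1 χ.1)) }
  map_add' z z' := by
    refine LinearMap.ext fun χ => ?_
    show inv (HH2π 𝓤 K (corZZ2 U K hU (cupUZ U K (z + z') χ)))
      = inv (HH2π 𝓤 K (corZZ2 U K hU (cupUZ U K z χ)))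
        + inv (HH2π 𝓤 K (corZZ2 U K hU (cupUZ U K z' χ)))
    rw [← map_add, ← map_add, ← map_add]
    exact congrArg (fun w => inv (HH2π 𝓤 K (corZZ2 U K hU w)))
      (Subtype.ext (cupU_add_left U K z.1 z'.1 χ.1))
  map_smul' r z := by
    refine LinearMap.ext fun χ => ?_
    show inv (HH2π 𝓤 K (corZZ2 U K hU (cupUZ U K (r • z) χ)))
      = r • inv (HH2π 𝓤 K (corZZ2 U K hU (cupUZ U K z χ)))
    rw [← map_smul, ← map_smul, ← map_smul]
    exact congrArg (fun w => inv (HH2π 𝓤 K (corZZ2 U K hU w)))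
      (Subtype.ext (cupU_smul_left U K r z.1 χ.1))

lemma pairU_apply (hU : 𝓤.IsOpen U) (z : ↥(ZZ1 (𝓤.sub U) (K.res U.subtype)))
    (χ : ↥(Z1 (𝓤.sub U) (Rep.trivial k ↥U k))) :
    pairU U K inv hU z χ = inv (HH2π 𝓤 K (corZZ2 U K hU (cupUZ U K z χ))) := rfl

/-- (R2-b) over `U`. -/
theorem a1SurjU_of_nondeg (hU : 𝓤.IsOpen U) (h2 : A2InjU U K inv hU)
    (hfin : Module.Finite k ↥(Z1 (𝓤.sub U) (Rep.trivial k ↥U k)))
    (h3 : CupNondegRight U K 𝓤) : A1SurjU U K inv hU := by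
  have hco : (LinearMap.range (pairU U K inv hU)).dualCoannihilator = ⊥ := by
    rw [eq_bot_iff]
    intro χ hχ
    rw [Submodule.mem_bot]
    by_contra hne
    obtain ⟨z, hz⟩ := h3 χ hne
    refine hz (h2 (cupUZ U K z χ) ?_)
    exact (Submodule.mem_dualCoannihilator χ).1 hχ _ ⟨z, rfl⟩
  have htop : LinearMap.range (pairU U K inv hU) = ⊤ := by
    have h := Subspace.dualCoannihilator_dualAnnihilator_eq
      (W := LinearMap.range (pairU U K inv hU))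
    rw [hco, Submodule.dualAnnihilator_bot] at h
    exact h.symm
  intro φ
  obtain ⟨z, hz⟩ := LinearMap.range_eq_top.1 htop φ
  exact ⟨z, fun χ => by rw [← hz]; rfl⟩

/-- (R2-b): `A1Surj` for `k[G/U]`. -/
theorem a1Surj_permRep_of_nondeg (hU : 𝓤.IsOpen U) (h2 : A2InjU U K inv hU)
    (hfin : Module.Finite k ↥(Z1 (𝓤.sub U) (Rep.trivial k ↥U k)))
    (h3 : CupNondegRight U K 𝓤) :
    A1Surj 𝓤 K (permRep k U) inv (permRep_smooth 𝓤 hU) (permRep_finite 𝓤 hU) :=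
  a1Surj_permRep_of_U U K inv hU (a1SurjU_of_nondeg U K inv hU h2 hfin h3)

/-- (R2-c) over `U`. -/
theorem a1InjU_of_nondeg (hU : 𝓤.IsOpen U) (h2 : A2InjU U K inv hU)
    (h4 : CupNondegLeft U K 𝓤) : A1InjU U K inv hU :=
  fun z hz => h4 z fun χ => h2 (cupUZ U K z χ) (hz χ)

/-- (R2-c): `A1Inj` for `k[G/U]`. -/
theorem a1Inj_permRep_of_nondeg (hU : 𝓤.IsOpen U) (h2 : A2InjU U K inv hU)
    (h4 : CupNondegLeft U K 𝓤) :
    A1Inj 𝓤 K (permRep k U) inv (permRep_smooth 𝓤 hU) (permRep_finite 𝓤 hU) :=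
  a1Inj_permRep_of_U U K inv hU (a1InjU_of_nondeg U K inv hU h2 h4)

end

end Fermat.Agent.F4
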