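import Fermat.Agent.F4.Shapiro.Core
import Fermat.Agent.F4.UC.Bridge

/-!
# F4 / Shapiro / Torsion : smooth `H¹` is torsion; `H¹(C)[p] = 0 ⇒ H¹(C)` is `p`-divisible

* `card_smul_mem_B1` : a 1-cocycle which is right-invariant under a subgroup `V` of finite index
  is killed by `[G : V]` modulo coboundaries (averaging);
* `exists_pos_smul_mem_B1` : every smooth 1-cocycle is torsion modulo coboundaries;
* `UC.H1p0.h1sm_div` : if `H¹(C)[p] = 0` then `H¹(C)` is `p`-divisible;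
* `UCData.kF1_of_H1p0`, `UCData.depHH2_res_of_H1p0` : `dim HH²(K) ≤ 1` from `H¹(C)[p] = 0`
  (instead of Hilbert 90) and `F1sm` — the form needed by GLOB.
-/

set_option autoImplicit false

open CategoryTheory groupCohomology

namespace Fermat.Agent.F4

section Averaging

variable {k G : Type} [CommRing k] [Group G]

/-- Averaging: a 1-cocycle right-invariant under a subgroup `V` of finite index is killed by
`[G : V]` modulo coboundaries. -/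
theorem card_smul_mem_B1 (A : Rep.{0} k G) (V : Subgroup G) [Fintype (G ⧸ V)] {c : G → A}
    (hc : ∀ g h : G, c (g * h) = A.ρ g (c h) + c g)
    (hV : ∀ g s : G, s ∈ V → c (g * s) = c g) :
    Fintype.card (G ⧸ V) • c ∈ B1 A := by
  refine ⟨-∑ x : G ⧸ V, c (shSec V x), ?_⟩
  funext g
  show A.ρ g (-∑ x : G ⧸ V, c (shSec V x)) - (-∑ x : G ⧸ V, c (shSec V x))
    = Fintype.card (G ⧸ V) • c g
  have h1 : ∀ x : G ⧸ V, c (g * shSec V x) = c (shSec V (g • x)) := by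
    intro x
    have e := shSec_mul_shW V (g • x) g
    rw [inv_smul_smul] at e
    rw [← e]
    exact hV _ _ (shW V (g • x) g).2
  have h2 : ∑ x : G ⧸ V, c (g * shSec V x) = ∑ x : G ⧸ V, c (shSec V x) := by
    rw [Finset.sum_congr rfl fun x _ => h1 x]
    exact Equiv.sum_comp (MulAction.toPerm g) fun y : G ⧸ V => c (shSec V y)
  have h3 : ∑ x : G ⧸ V, c (g * shSec V x)
      = A.ρ g (∑ x : G ⧸ V, c (shSec V x)) + Fintype.card (G ⧸ V) • c g := by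
    rw [Finset.sum_congr rfl fun x _ => hc g (shSec V x), Finset.sum_add_distrib, map_sum,
      Finset.sum_const, Finset.card_univ]
  rw [h2] at h3
  rw [map_neg]
  have h4 : Fintype.card (G ⧸ V) • c g
      = ∑ x : G ⧸ V, c (shSec V x) - A.ρ g (∑ x : G ⧸ V, c (shSec V x)) := by
    rw [eq_sub_iff_add_eq, add_comm]
    exact h3.symm
  rw [h4]
  abel

variable {𝓤 : Levels G}

/-- Every smooth 1-cocycle is torsion modulo coboundaries. -/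
theorem exists_pos_smul_mem_B1 (A : Rep.{0} k G) {c : G → A} (hc : c ∈ Z1 𝓤 A) :
    ∃ n : ℕ, 0 < n ∧ n • c ∈ B1 A := by
  obtain ⟨V, hV, hVc⟩ := hc.2
  have := 𝓤.finiteIndex V hV
  have : Finite (G ⧸ V) := Subgroup.finite_quotient_of_finiteIndex
  let _ := Fintype.ofFinite (G ⧸ V)
  exact ⟨Fintype.card (G ⧸ V), Fintype.card_pos,
    card_smul_mem_B1 A V ((mem_cocycles₁_iff c).1 hc.1) hVc⟩

end Averaging

variable {G : Type} [Group G]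

namespace UC

variable {p : ℕ} {𝓤 : Levels G} {C : Rep.{0} ℤ G}

lemma H1p0.pow (h : H1p0 p 𝓤 C) (a : ℕ) {c : G → C} (hc : c ∈ Z1 𝓤 C)
    (hB : ((p : ℤ) ^ a) • c ∈ B1 C) : c ∈ B1 C := by
  induction a with
  | zero => rwa [pow_zero, one_smul] at hB
  | succ a ih =>
    refine ih (h (((p : ℤ) ^ a) • c) (zsmul_mem hc _) ?_)
    have e : (fun g => (p : ℤ) • (((p : ℤ) ^ a) • c) g) = ((p : ℤ) ^ (a + 1)) • c := by
      funext g
      show (p : ℤ) • (((p : ℤ) ^ a) • c g) = ((p : ℤ) ^ (a + 1)) • c g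
      rw [smul_smul, pow_succ, mul_comm]
    rw [e]
    exact hB

/-- If `H¹(C)[p] = 0`, every smooth 1-cocycle is `p` times a smooth 1-cocycle modulo
coboundaries. -/
theorem H1p0.exists_sub_p_smul_mem_B1 (hp : p.Prime) (h : H1p0 p 𝓤 C) {c : G → C}
    (hc : c ∈ Z1 𝓤 C) : ∃ c' : G → C, c' ∈ Z1 𝓤 C ∧ c - (p : ℤ) • c' ∈ B1 C := by
  obtain ⟨n, hn, hnB⟩ := exists_pos_smul_mem_B1 C hc
  obtain ⟨a, m, hm, rfl⟩ := Nat.exists_eq_pow_mul_and_not_dvd hn.ne' p hp.ne_one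
  have h1 : ((m : ℤ) • c) ∈ B1 C := by
    refine h.pow a (zsmul_mem hc _) ?_
    have e : ((p : ℤ) ^ a) • ((m : ℤ) • c) = (p ^ a * m) • c := by
      rw [smul_smul, ← natCast_zsmul]
      push_cast
      rfl
    rw [e]
    exact hnB
  have hcop : IsCoprime (m : ℤ) (p : ℤ) := by
    rw [Int.isCoprime_iff_gcd_eq_one, Int.gcd_natCast_natCast]
    exact Nat.Coprime.symm ((Nat.Prime.coprime_iff_not_dvd hp).2 hm)
  obtain ⟨u, v, huv⟩ := hcop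
  refine ⟨v • c, zsmul_mem hc _, ?_⟩
  have e : c - (p : ℤ) • (v • c) = u • ((m : ℤ) • c) := by
    rw [smul_smul, smul_smul, sub_eq_iff_eq_add, ← add_smul, mul_comm (p : ℤ) v, huv, one_smul]
  rw [e]
  exact zsmul_mem h1 u

/-- If `H¹(C)[p] = 0` then `H¹(C)` is `p`-divisible. -/
theorem H1p0.h1sm_div (hp : p.Prime) (h : H1p0 p 𝓤 C) (x : H1sm 𝓤 C) :
    ∃ x' : H1sm 𝓤 C, x = (p : ℤ) • x' := by
  obtain ⟨c, rfl⟩ := UC.H1smπ_surjective C x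
  obtain ⟨c', hc', hB⟩ := h.exists_sub_p_smul_mem_B1 hp c.2
  refine ⟨H1smπ 𝓤 C ⟨c', hc'⟩, ?_⟩
  rw [← map_zsmul, UC.H1smπ_eq_iff]
  exact hB

end UC

namespace UCData

variable {p : ℕ} {K : Cx (ZMod p) G} {C I Q : Rep.{0} ℤ G} (D : UCData p K C I Q)
  {𝓤 : Levels G} (hI : IsSmooth 𝓤 I)

include D hI

/-- Cocycle form of the injectivity of `β²` when `H¹(C)` is `p`-divisible. -/
theorem mem_BB2_of_rel2_of_div (hdiv : ∀ x : H1sm 𝓤 C, ∃ x' : H1sm 𝓤 C, x = (p : ℤ) • x')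
    {z : T2 K} (hz : z ∈ ZZ2 𝓤 K) {w : G × G → C} (hrel : D.Rel2 𝓤 z w) (hw : w ∈ B2 𝓤 C) :
    z ∈ BB2 𝓤 K := by
  obtain ⟨c, hc, hα⟩ := hrel.ker hw
  have h1 := D.α2_mk hI ⟨c, hc⟩ ⟨z, hz⟩ hα
  have h2 := (D.α2_eq_zero_iff hI _).2 (hdiv (H1smπ 𝓤 C ⟨c, hc⟩))
  rw [h1] at h2
  exact (HH2π_eq_zero_iff 𝓤 K ⟨z, hz⟩).1 h2

/-- **K-F1** from `H¹(C)[p] = 0` and the formation-level dependency `F1sm`. -/
theorem kF1_of_H1p0 [Fact p.Prime] (h1 : UC.H1p0 p 𝓤 C) (hF1 : UC.F1sm p 𝓤 C) :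
    UC.KF1 𝓤 K := by
  have hp : p.Prime := Fact.out
  have : NeZero p := ⟨hp.ne_zero⟩
  intro z₁ z₂ hz₁ hz₂
  obtain ⟨w₁, hw₁, hrel₁⟩ := Rel2.exists D hI hz₁
  obtain ⟨w₂, hw₂, hrel₂⟩ := Rel2.exists D hI hz₂
  obtain ⟨x, y, hxy, hB⟩ := hF1 w₁ w₂ hw₁ hw₂ (hrel₁.p_smul_mem_B2 hI hz₁)
    (hrel₂.p_smul_mem_B2 hI hz₂)
  refine ⟨(x : ZMod p), (y : ZMod p), ?_, ?_⟩
  · rcases hxy with h | h
    · exact Or.inl fun h0 => h ((ZMod.intCast_zmod_eq_zero_iff_dvd x p).1 h0)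
    · exact Or.inr fun h0 => h ((ZMod.intCast_zmod_eq_zero_iff_dvd y p).1 h0)
  · have hrel : D.Rel2 𝓤 (x • z₁ + y • z₂) (x • w₁ + y • w₂) :=
      (hrel₁.zsmul x).add (hrel₂.zsmul y)
    have e : ((x : ZMod p) • z₁ + (y : ZMod p) • z₂ : T2 K) = x • z₁ + y • z₂ := by
      rw [Int.cast_smul_eq_zsmul, Int.cast_smul_eq_zsmul]
    have hzz : ((x : ZMod p) • z₁ + (y : ZMod p) • z₂ : T2 K) ∈ ZZ2 𝓤 K :=
      (ZZ2 𝓤 K).add_mem ((ZZ2 𝓤 K).smul_mem _ hz₁) ((ZZ2 𝓤 K).smul_mem _ hz₂)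
    rw [e] at hzz ⊢
    exact D.mem_BB2_of_rel2_of_div hI (fun t => h1.h1sm_div hp t) hzz hrel hB

end UCData

namespace UCData

variable {p : ℕ} [Fact p.Prime] {K : Cx (ZMod p) G} {C I Q : Rep.{0} ℤ G}
  (D : UCData p K C I Q) {𝓤 : Levels G} (hI : IsSmooth 𝓤 I) (U : Subgroup G)

include D hI

/-- `dim HH²(U, K) ≤ 1` from `H¹(U, C)[p] = 0` and `F1sm` over `U` (GLOB form). -/
theorem depHH2_res_of_H1p0 (h1 : UC.H1p0 p (𝓤.sub U) (Rep.res U.subtype C))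
    (hF1 : UC.F1sm p (𝓤.sub U) (Rep.res U.subtype C)) :
    DepHH2 (𝓤.sub U) (K.res U.subtype) :=
  UC.depHH2_of_KF1 ((D.res U.subtype).kF1_of_H1p0 (UC.isSmooth_res U.subtype hI) h1 hF1)

end UCData

end Fermat.Agent.F4
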