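import Fermat.Agent.F4.Duality

/-!
# F4 / Shapiro / Core : cochain-level Shapiro lemma for a module coinduced from a subgroup

`U ≤ G` a subgroup, `X = G ⧸ U`, `x₀` the base coset, `s : X → G` a section with `s x₀ = 1`,
`w (x, g) = s(x)⁻¹ g s(g⁻¹ x) ∈ U`.  A `G`-module `M` is *coinduced* from `A` (`Coind U M A`) if
`M ≃ ∏_{x ∈ X} A` with `π_x (g m) = g π_{g⁻¹ x} (m)`.  On inhomogeneous cochains:

* `sh` : `C^n(G, M) → C^n(U, A)`, evaluation at `x₀` of the restriction to `U`;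
* `tr` : `C^n(U, A) → C^n(G, M)`, `(tr y)(g₁, g₂)_x = s(x) y(w(x, g₁), w(g₁⁻¹ x, g₂))`;
* `ho` : the homotopy, `tr (sh c) - c = δ (ho c) + ho (δ c)`.

Everything is explicit in degrees `≤ 2`; `sh ∘ tr = id` on the nose.
-/

set_option autoImplicit false

open CategoryTheory groupCohomology

namespace Fermat.Agent.F4

variable {k G : Type} [CommRing k] [Group G]

/-! ### The section and the cocycle `w` -/

section Section

variable (U : Subgroup G)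

/-- The base coset `x₀ = U`. -/
def shBase : G ⧸ U := ((1 : G) : G ⧸ U)

open Classical in
/-- A section `s` of `G → G ⧸ U` with `s x₀ = 1`. -/
noncomputable def shSec (x : G ⧸ U) : G := if x = shBase U then 1 else Quotient.out x

lemma shSec_base : shSec U (shBase U) = 1 := by simp [shSec]

lemma mk_shSec (x : G ⧸ U) : ((shSec U x : G) : G ⧸ U) = x := by
  unfold shSec
  split_ifs with h
  · rw [h]; rfl
  · exact QuotientGroup.out_eq' x

lemma shSec_smul_base (x : G ⧸ U) : shSec U x • shBase U = x := by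
  conv_rhs => rw [← mk_shSec U x]
  show ((shSec U x * 1 : G) : G ⧸ U) = _
  rw [mul_one]

lemma shSec_inv_smul (x : G ⧸ U) : (shSec U x)⁻¹ • x = shBase U := by
  rw [inv_smul_eq_iff]
  exact (shSec_smul_base U x).symm

lemma mk_mul_shSec (g : G) (x : G ⧸ U) : ((g * shSec U x : G) : G ⧸ U) = g • x := by
  conv_rhs => rw [← mk_shSec U x]
  rfl

lemma smul_base_of_mem {u : G} (hu : u ∈ U) : u • shBase U = shBase U := by
  show ((u * 1 : G) : G ⧸ U) = ((1 : G) : G ⧸ U)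
  rw [QuotientGroup.eq]
  simpa using hu

lemma shW_mem (x : G ⧸ U) (g : G) : (shSec U x)⁻¹ * g * shSec U (g⁻¹ • x) ∈ U := by
  rw [mul_assoc, ← QuotientGroup.eq, mk_mul_shSec, smul_inv_smul, mk_shSec]

/-- `w(x, g) = s(x)⁻¹ g s(g⁻¹ x) ∈ U`. -/
noncomputable def shW (x : G ⧸ U) (g : G) : U := ⟨(shSec U x)⁻¹ * g * shSec U (g⁻¹ • x), shW_mem U x g⟩

lemma shW_coe (x : G ⧸ U) (g : G) :
    ((shW U x g : U) : G) = (shSec U x)⁻¹ * g * shSec U (g⁻¹ • x) := rfl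

lemma shSec_mul_shW (x : G ⧸ U) (g : G) :
    shSec U x * (shW U x g : G) = g * shSec U (g⁻¹ • x) := by
  rw [shW_coe, mul_assoc, mul_inv_cancel_left]

lemma shW_mul (x : G ⧸ U) (g h : G) :
    shW U x (g * h) = shW U x g * shW U (g⁻¹ • x) h := by
  apply Subtype.ext
  rw [Subgroup.coe_mul, shW_coe, shW_coe, shW_coe, mul_inv_rev, mul_smul]
  group

lemma shW_base (u : U) : shW U (shBase U) (u : G) = u := by
  apply Subtype.ext
  rw [shW_coe, shSec_base, smul_base_of_mem U (U.inv_mem u.2), shSec_base]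
  simp

/-- A normal subgroup contained in `U` acts trivially on `G ⧸ U`. -/
lemma smul_eq_of_mem_normal {V : Subgroup G} (hV : V.Normal) (hVU : V ≤ U) {v : G} (hv : v ∈ V)
    (x : G ⧸ U) : v • x = x := by
  induction x using QuotientGroup.induction_on with
  | H y =>
    show ((v * y : G) : G ⧸ U) = (y : G ⧸ U)
    rw [QuotientGroup.eq]
    have h1 : (v * y)⁻¹ * y = y⁻¹ * v⁻¹ * y⁻¹⁻¹ := by group
    rw [h1]
    exact hVU (hV.conj_mem _ (V.inv_mem hv) _)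

/-- `w(x, g v) = w(x, g) v'` with `v' ∈ V`, for `V` normal in `G` and contained in `U`. -/
lemma shW_mul_mem {V : Subgroup G} (hV : V.Normal) (hVU : V ≤ U) {v : G} (hv : v ∈ V)
    (x : G ⧸ U) (g : G) :
    ∃ v' : U, (v' : G) ∈ V ∧ shW U x (g * v) = shW U x g * v' := by
  have hx : (g * v)⁻¹ • x = g⁻¹ • x := by
    rw [mul_inv_rev, mul_smul, smul_eq_of_mem_normal U hV hVU (V.inv_mem hv)]
  have hmem : (shSec U (g⁻¹ • x))⁻¹ * v * (shSec U (g⁻¹ • x))⁻¹⁻¹ ∈ V := hV.conj_mem _ hv _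
  refine ⟨⟨(shSec U (g⁻¹ • x))⁻¹ * v * (shSec U (g⁻¹ • x))⁻¹⁻¹, hVU hmem⟩, hmem, ?_⟩
  apply Subtype.ext
  rw [Subgroup.coe_mul, shW_coe, shW_coe, hx]
  simp only
  group

end Section

/-! ### Coinduced modules -/

/-- `M` is coinduced from `A` along `U ≤ G`: `M ≃ ∏_{x ∈ G/U} A` via the components `π x`, and
`π x (g m) = g (π (g⁻¹ x) m)`. -/
structure Coind (U : Subgroup G) (M A : Rep.{0} k G) where
  π : (G ⧸ U) → (M →ₗ[k] A)
  π_ρ : ∀ (g : G) (x : G ⧸ U) (m : M), π x (M.ρ g m) = A.ρ g (π (g⁻¹ • x) m)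
  lift : ((G ⧸ U) → A) → M
  π_lift : ∀ (F : (G ⧸ U) → A) (x : G ⧸ U), π x (lift F) = F x
  ext : ∀ m m' : M, (∀ x, π x m = π x m') → m = m'

namespace Coind

variable {U : Subgroup G} {M A : Rep.{0} k G} (c : Coind U M A)

/-! #### The maps `sh`, `tr`, `ho` -/

/-- `sh⁰ m = m_{x₀}`. -/
def sh0 (m : M) : Rep.res U.subtype A := c.π (shBase U) m

/-- `sh¹`. -/
def sh1 (f : G → M) : U → Rep.res U.subtype A := fun u => c.π (shBase U) (f u)

/-- `sh²`. -/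
def sh2 (f : G × G → M) : U × U → Rep.res U.subtype A :=
  fun p => c.π (shBase U) (f ((p.1 : G), (p.2 : G)))

/-- `tr⁰ a = (x ↦ s(x) a)`. -/
noncomputable def tr0 (a : Rep.res U.subtype A) : M := c.lift fun x => A.ρ (shSec U x) a

/-- `tr¹`. -/
noncomputable def tr1 (y : U → Rep.res U.subtype A) : G → M :=
  fun g => c.lift fun x => A.ρ (shSec U x) (y (shW U x g))

/-- `tr²`. -/
noncomputable def tr2 (y : U × U → Rep.res U.subtype A) : G × G → M :=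
  fun p => c.lift fun x => A.ρ (shSec U x) (y (shW U x p.1, shW U (p.1⁻¹ • x) p.2))

/-- The homotopy in degree `1 → 0`: `(ho⁰ f)_x = f(s x)_x`. -/
noncomputable def ho0 (f : G → M) : M := c.lift fun x => c.π x (f (shSec U x))

/-- The homotopy in degree `2 → 1`. -/
noncomputable def ho1 (f : G × G → M) : G → M :=
  fun g => c.lift fun x =>
    c.π x (f (shSec U x, (shW U x g : G))) - c.π x (f (g, shSec U (g⁻¹ • x)))

@[simp] lemma π_tr0 (a : Rep.res U.subtype A) (x : G ⧸ U) :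
    c.π x (c.tr0 a) = A.ρ (shSec U x) a := c.π_lift _ x

@[simp] lemma π_tr1 (y : U → Rep.res U.subtype A) (g : G) (x : G ⧸ U) :
    c.π x (c.tr1 y g) = A.ρ (shSec U x) (y (shW U x g)) := c.π_lift _ x

@[simp] lemma π_tr2 (y : U × U → Rep.res U.subtype A) (p : G × G) (x : G ⧸ U) :
    c.π x (c.tr2 y p) = A.ρ (shSec U x) (y (shW U x p.1, shW U (p.1⁻¹ • x) p.2)) :=
  c.π_lift _ x

@[simp] lemma π_ho0 (f : G → M) (x : G ⧸ U) : c.π x (c.ho0 f) = c.π x (f (shSec U x)) :=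
  c.π_lift _ x

@[simp] lemma π_ho1 (f : G × G → M) (g : G) (x : G ⧸ U) :
    c.π x (c.ho1 f g) =
      c.π x (f (shSec U x, (shW U x g : G))) - c.π x (f (g, shSec U (g⁻¹ • x))) :=
  c.π_lift _ x

/-- `π x₀ (u m) = u (π x₀ m)` for `u ∈ U`. -/
lemma π_base_ρ (u : U) (m : M) :
    c.π (shBase U) (M.ρ (u : G) m) = A.ρ (u : G) (c.π (shBase U) m) := by
  rw [c.π_ρ, smul_base_of_mem U (U.inv_mem u.2)]

/-! #### `sh ∘ tr = id` -/

lemma sh0_tr0 (a : Rep.res U.subtype A) : c.sh0 (c.tr0 a) = a := by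
  show c.π (shBase U) (c.tr0 a) = a
  rw [π_tr0, shSec_base, map_one]
  rfl

lemma sh1_tr1 (y : U → Rep.res U.subtype A) : c.sh1 (c.tr1 y) = y := by
  funext u
  show c.π (shBase U) (c.tr1 y u) = y u
  rw [π_tr1, shSec_base, map_one, shW_base]
  rfl

lemma sh2_tr2 (y : U × U → Rep.res U.subtype A) : c.sh2 (c.tr2 y) = y := by
  funext p
  show c.π (shBase U) (c.tr2 y ((p.1 : G), (p.2 : G))) = y p
  rw [π_tr2, shSec_base, map_one]
  simp only
  rw [shW_base, smul_base_of_mem U (U.inv_mem p.1.2), shW_base]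
  rfl

/-! #### `sh` and `tr` are chain maps -/

lemma sh1_δ0 (m : M) : c.sh1 (δ0 M m) = δ0 (Rep.res U.subtype A) (c.sh0 m) := by
  funext u
  show c.π (shBase U) (M.ρ (u : G) m - m) = A.ρ (u : G) (c.π (shBase U) m) - c.π (shBase U) m
  rw [map_sub, c.π_base_ρ]

lemma sh2_δ1 (f : G → M) : c.sh2 (δ1 M f) = δ1 (Rep.res U.subtype A) (c.sh1 f) := by
  funext p
  show c.π (shBase U) (M.ρ (p.1 : G) (f (p.2 : G)) - f ((p.1 : G) * (p.2 : G)) + f (p.1 : G))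
    = A.ρ (p.1 : G) (c.π (shBase U) (f (p.2 : G))) - c.π (shBase U) (f ((p.1 * p.2 : U) : G))
      + c.π (shBase U) (f (p.1 : G))
  rw [map_add, map_sub, c.π_base_ρ]
  rfl

lemma δ2_sh2_eq_zero {f : G × G → M} (hf : δ2 M f = 0) :
    δ2 (Rep.res U.subtype A) (c.sh2 f) = 0 := by
  funext p
  have h := congrArg (c.π (shBase U)) (congrFun hf ((p.1 : G), (p.2.1 : G), (p.2.2 : G)))
  simp only [δ2_apply, Pi.zero_apply, map_zero, map_add, map_sub, c.π_base_ρ] at h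
  exact h

lemma δ0_tr0 (a : Rep.res U.subtype A) :
    δ0 M (c.tr0 a) = c.tr1 (δ0 (Rep.res U.subtype A) a) := by
  funext g
  apply c.ext
  intro x
  rw [δ0_apply, map_sub, c.π_ρ, π_tr0, π_tr0, π_tr1, δ0_apply]
  show A.ρ g (A.ρ (shSec U (g⁻¹ • x)) a) - A.ρ (shSec U x) a
    = A.ρ (shSec U x) (A.ρ (shW U x g : G) a - a)
  rw [map_sub, ← Module.End.mul_apply, ← map_mul, ← Module.End.mul_apply, ← map_mul,
    shSec_mul_shW]

lemma δ1_tr1 (y : U → Rep.res U.subtype A) :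
    δ1 M (c.tr1 y) = c.tr2 (δ1 (Rep.res U.subtype A) y) := by
  funext p
  apply c.ext
  intro x
  rw [δ1_apply, map_add, map_sub, c.π_ρ, π_tr1, π_tr1, π_tr1, π_tr2, δ1_apply]
  show A.ρ p.1 (A.ρ (shSec U (p.1⁻¹ • x)) (y (shW U (p.1⁻¹ • x) p.2)))
      - A.ρ (shSec U x) (y (shW U x (p.1 * p.2))) + A.ρ (shSec U x) (y (shW U x p.1))
    = A.ρ (shSec U x) (A.ρ (shW U x p.1 : G) (y (shW U (p.1⁻¹ • x) p.2))
      - y (shW U x p.1 * shW U (p.1⁻¹ • x) p.2) + y (shW U x p.1))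
  rw [map_add, map_sub, ← Module.End.mul_apply, ← map_mul, ← Module.End.mul_apply (A.ρ (shSec U x)),
    ← map_mul, shSec_mul_shW, shW_mul]

lemma δ2_tr2_eq_zero {y : U × U → Rep.res U.subtype A}
    (hy : δ2 (Rep.res U.subtype A) y = 0) : δ2 M (c.tr2 y) = 0 := by
  funext p
  obtain ⟨g, h, j⟩ := p
  apply c.ext
  intro x
  have h0 := congrFun hy (shW U x g, shW U (g⁻¹ • x) h, shW U (h⁻¹ • g⁻¹ • x) j)
  have h0' : A.ρ (shW U x g : G) (y (shW U (g⁻¹ • x) h, shW U (h⁻¹ • g⁻¹ • x) j))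
      - y (shW U x g * shW U (g⁻¹ • x) h, shW U (h⁻¹ • g⁻¹ • x) j)
      + y (shW U x g, shW U (g⁻¹ • x) h * shW U (h⁻¹ • g⁻¹ • x) j)
      - y (shW U x g, shW U (g⁻¹ • x) h) = 0 := h0
  have h1 := congrArg (A.ρ (shSec U x)) h0'
  simp only [map_zero, map_add, map_sub] at h1
  rw [← Module.End.mul_apply, ← map_mul, shSec_mul_shW] at h1
  simp only [δ2_apply, Pi.zero_apply, map_zero, map_add, map_sub, c.π_ρ, π_tr2]
  rw [← h1, shW_mul, shW_mul, mul_inv_rev, mul_smul, ← Module.End.mul_apply, ← map_mul]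

/-! #### The homotopy identities -/

/-- `tr (sh f) - f = δ (ho f) + ho (δ f)` on 1-cochains. -/
lemma tr1_sh1_sub (f : G → M) :
    c.tr1 (c.sh1 f) - f = δ0 M (c.ho0 f) + c.ho1 (δ1 M f) := by
  funext g
  apply c.ext
  intro x
  simp only [Pi.sub_apply, Pi.add_apply, map_sub, map_add, π_tr1, π_ho1, δ0_apply, δ1_apply,
    c.π_ρ, π_ho0, sh1]
  rw [shSec_inv_smul, shSec_mul_shW]
  abel

/-- `tr (sh f) - f = δ (ho f)` on 2-cocycles. -/
lemma tr2_sh2_sub {f : G × G → M} (hf : δ2 M f = 0) :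
    c.tr2 (c.sh2 f) - f = δ1 M (c.ho1 f) := by
  funext p
  obtain ⟨g, h⟩ := p
  apply c.ext
  intro x
  -- the three cocycle relations
  have R1 := congrArg (c.π x) (congrFun hf (g, h, shSec U (h⁻¹ • g⁻¹ • x)))
  have R2 := congrArg (c.π x)
    (congrFun hf (g, shSec U (g⁻¹ • x), (shW U (g⁻¹ • x) h : G)))
  have R3 := congrArg (c.π x)
    (congrFun hf (shSec U x, (shW U x g : G), (shW U (g⁻¹ • x) h : G)))
  simp only [δ2_apply, Pi.zero_apply, map_zero, map_add, map_sub, c.π_ρ] at R1 R2 R3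
  rw [shSec_mul_shW] at R2
  rw [shSec_inv_smul, shSec_mul_shW, ← Subgroup.coe_mul, ← shW_mul] at R3
  simp only [Pi.sub_apply, map_sub, map_add, π_tr2, π_ho1, δ1_apply, c.π_ρ, sh2, mul_inv_rev,
    mul_smul]
  have key : ∀ (T F gA gB C D E Fg P Q : A), gB - D + P - F = 0 → gA - Q + P - Fg = 0 →
      T - Q + C - E = 0 → T - F = gA - gB - (C - D) + (E - Fg) := by
    intro T F gA gB C D E Fg P Q h1 h2 h3
    have e : T - F - (gA - gB - (C - D) + (E - Fg))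
        = (T - Q + C - E) - (gA - Q + P - Fg) + (gB - D + P - F) := by abel
    rw [← sub_eq_zero, e, h1, h2, h3]
    simp
  exact key _ _ _ _ _ _ _ _ _ _ R1 R2 R3

/-! #### Level-constancy -/

variable (𝓤 : Levels G)

lemma isLC_sh1 {f : G → M} (hf : IsLC₁ 𝓤 f) : IsLC₁ (𝓤.sub U) (c.sh1 f) :=
  (IsLC₁.comp_hom 𝓤 U.subtype hf).comp (c.π (shBase U))

lemma isLC_sh2 {f : G × G → M} (hf : IsLC₂ 𝓤 f) : IsLC₂ (𝓤.sub U) (c.sh2 f) :=
  (IsLC₂.comp_hom 𝓤 U.subtype hf).comp (c.π (shBase U))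

/-- A level contained in `U` and in a given level of `U`. -/
lemma exists_level_le (hU : 𝓤.IsOpen U) {V' : Subgroup U} (hV' : V' ∈ (𝓤.sub U).sets) :
    ∃ W ∈ 𝓤.sets, W ≤ U ∧ ∀ u : U, (u : G) ∈ W → u ∈ V' := by
  obtain ⟨V, hV, rfl⟩ := hV'
  obtain ⟨V₀, hV₀, hV₀U⟩ := hU
  obtain ⟨W, hW, hWle⟩ := 𝓤.directed V hV V₀ hV₀
  exact ⟨W, hW, fun g hg => hV₀U (hWle hg).2, fun u hu => (hWle hu).1⟩

lemma isLC_tr1 (hU : 𝓤.IsOpen U) {y : U → Rep.res U.subtype A} (hy : IsLC₁ (𝓤.sub U) y) :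
    IsLC₁ 𝓤 (c.tr1 y) := by
  obtain ⟨V', hV', hyV⟩ := hy
  obtain ⟨W, hW, hWU, hWV⟩ := exists_level_le 𝓤 hU hV'
  have hWn := 𝓤.normal W hW
  refine ⟨W, hW, fun g v hv => ?_⟩
  apply c.ext
  intro x
  obtain ⟨v', hv', hw⟩ := shW_mul_mem U hWn hWU hv x g
  rw [π_tr1, π_tr1, hw, hyV _ _ (hWV v' hv')]

lemma isLC_tr2 (hU : 𝓤.IsOpen U) {y : U × U → Rep.res U.subtype A}
    (hy : IsLC₂ (𝓤.sub U) y) : IsLC₂ 𝓤 (c.tr2 y) := by
  obtain ⟨V', hV', hyV⟩ := hy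
  obtain ⟨W, hW, hWU, hWV⟩ := exists_level_le 𝓤 hU hV'
  have hWn := 𝓤.normal W hW
  refine ⟨W, hW, fun g g' v v' hv hv' => ?_⟩
  apply c.ext
  intro x
  have hx : (g * v)⁻¹ • x = g⁻¹ • x := by
    rw [mul_inv_rev, mul_smul, smul_eq_of_mem_normal U hWn hWU (W.inv_mem hv)]
  obtain ⟨v₁, hv₁, hw₁⟩ := shW_mul_mem U hWn hWU hv x g
  obtain ⟨v₂, hv₂, hw₂⟩ := shW_mul_mem U hWn hWU hv' (g⁻¹ • x) g'
  rw [π_tr2, π_tr2]
  simp only
  rw [hx, hw₁, hw₂, hyV _ _ _ _ (hWV v₁ hv₁) (hWV v₂ hv₂)]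

lemma isLC_ho1 (hU : 𝓤.IsOpen U) {f : G × G → M} (hf : IsLC₂ 𝓤 f) : IsLC₁ 𝓤 (c.ho1 f) := by
  obtain ⟨V, hV, hfV⟩ := hf
  obtain ⟨V₀, hV₀, hV₀U⟩ := hU
  obtain ⟨W, hW, hWle⟩ := 𝓤.directed V hV V₀ hV₀
  have hWn := 𝓤.normal W hW
  have hWU : W ≤ U := fun g hg => hV₀U (hWle hg).2
  refine ⟨W, hW, fun g v hv => ?_⟩
  apply c.ext
  intro x
  have hx : (g * v)⁻¹ • x = g⁻¹ • x := by
    rw [mul_inv_rev, mul_smul, smul_eq_of_mem_normal U hWn hWU (W.inv_mem hv)]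
  obtain ⟨v₁, hv₁, hw₁⟩ := shW_mul_mem U hWn hWU hv x g
  rw [π_ho1, π_ho1, hx, hw₁, Subgroup.coe_mul]
  have e1 := hfV (shSec U x) (shW U x g : G) 1 (v₁ : G) V.one_mem (hWle hv₁).1
  have e2 := hfV g (shSec U (g⁻¹ • x)) v 1 (hWle hv).1 V.one_mem
  rw [mul_one] at e1 e2
  rw [e1, e2]

end Coind

/-! ### Morphisms of coinduced modules -/

/-- A pair of compatible maps `dM : M → M'`, `dA : A → A'` between coinduced modules. -/
structure CoindHom {U : Subgroup G} {M A M' A' : Rep.{0} k G} (c : Coind U M A)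
    (c' : Coind U M' A') (dM : M →ₗ[k] M') (dA : A →ₗ[k] A') : Prop where
  comm_π : ∀ (x : G ⧸ U) (m : M), c'.π x (dM m) = dA (c.π x m)
  comm_ρ : ∀ (g : G) (a : A), dA (A.ρ g a) = A'.ρ g (dA a)

namespace CoindHom

variable {U : Subgroup G} {M A M' A' : Rep.{0} k G} {c : Coind U M A} {c' : Coind U M' A'}
  {dM : M →ₗ[k] M'} {dA : A →ₗ[k] A'} (h : CoindHom c c' dM dA)

include h

lemma map_sh0 (m : M) : c'.sh0 (dM m) = dA (c.sh0 m) := h.comm_π _ m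

lemma map_sh1 (f : G → M) : c'.sh1 (fun g => dM (f g)) = fun u => dA (c.sh1 f u) := by
  funext u
  exact h.comm_π _ _

lemma map_tr0 (a : A) : dM (c.tr0 a) = c'.tr0 (dA a) := by
  apply c'.ext
  intro x
  rw [h.comm_π, Coind.π_tr0, Coind.π_tr0, h.comm_ρ]

lemma map_tr1 (y : U → Rep.res U.subtype A) :
    (fun g => dM (c.tr1 y g)) = c'.tr1 (fun u => dA (y u)) := by
  funext g
  apply c'.ext
  intro x
  rw [h.comm_π, Coind.π_tr1, Coind.π_tr1, h.comm_ρ]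

lemma map_ho0 (f : G → M) : dM (c.ho0 f) = c'.ho0 (fun g => dM (f g)) := by
  apply c'.ext
  intro x
  rw [h.comm_π, Coind.π_ho0, Coind.π_ho0, h.comm_π]

lemma map_ho1 (f : G × G → M) :
    (fun g => dM (c.ho1 f g)) = c'.ho1 (fun p => dM (f p)) := by
  funext g
  apply c'.ext
  intro x
  rw [h.comm_π, Coind.π_ho1, Coind.π_ho1, map_sub, h.comm_π, h.comm_π]

end CoindHom

end Fermat.Agent.F4
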