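import Fermat.Agent.F4.Shapiro.Inst

/-!
# F4 / Shapiro / Module : Shapiro's lemma in degree 1 for the coefficient module `k[G/U]`

`H¹(G, k[G/U]) = H¹(U, k) = Hom(U, k)` on smooth cocycles:
`shN1 y = (u ↦ y(u)(x₀))`, with explicit inverse `trN1`, and injectivity `shapiroN_inj1` (S1).
-/

set_option autoImplicit false

open CategoryTheory groupCohomology

namespace Fermat.Agent.F4

variable {k G : Type} [CommRing k] [Group G] (U : Subgroup G)

/-- Shapiro map for the coefficient module `k[G/U]`: `y ↦ (u ↦ y(u)(x₀))`. -/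
def shN1 (y : G → permRep k U) : U → Rep.trivial k ↥U k := (coindPerm U).sh1 y

/-- The inverse of the Shapiro map for the coefficient module `k[G/U]`. -/
noncomputable def trN1 (χ : U → Rep.trivial k ↥U k) : G → permRep k U := (coindPerm U).tr1 χ

lemma shN1_apply (y : G → permRep k U) (u : U) :
    shN1 U y u = (y (u : G) : (G ⧸ U) → k) (shBase U) := rfl

lemma trN1_apply (χ : U → Rep.trivial k ↥U k) (g : G) (x : G ⧸ U) :
    (trN1 U χ g : (G ⧸ U) → k) x = χ (shW U x g) :=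
  (coindPerm U).π_tr1 χ g x

lemma shN1_trN1 (χ : U → Rep.trivial k ↥U k) : shN1 U (trN1 U χ) = χ :=
  (coindPerm U).sh1_tr1 χ

lemma shN1_add (y y' : G → permRep k U) : shN1 U (y + y') = shN1 U y + shN1 U y' := rfl

lemma shN1_smul (a : k) (y : G → permRep k U) : shN1 U (a • y) = a • shN1 U y := rfl

lemma trN1_add (χ χ' : U → Rep.trivial k ↥U k) : trN1 U (χ + χ') = trN1 U χ + trN1 U χ' := by
  funext g
  funext x
  show (trN1 U (χ + χ') g : (G ⧸ U) → k) x
    = (trN1 U χ g : (G ⧸ U) → k) x + (trN1 U χ' g : (G ⧸ U) → k) x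
  rw [trN1_apply, trN1_apply, trN1_apply]
  rfl

lemma trN1_smul (a : k) (χ : U → Rep.trivial k ↥U k) : trN1 U (a • χ) = a • trN1 U χ := by
  funext g
  funext x
  show (trN1 U (a • χ) g : (G ⧸ U) → k) x = a • (trN1 U χ g : (G ⧸ U) → k) x
  rw [trN1_apply, trN1_apply]
  rfl

lemma shN1_δ0 (n : permRep k U) : shN1 U (δ0 (permRep k U) n) = 0 := by
  have h := (coindPerm (k := k) U).sh1_δ0 n
  funext u
  have hu := congrFun h u
  rw [δ0_apply] at hu
  show (coindPerm U).sh1 (δ0 (permRep k U) n) u = 0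
  rw [hu]
  exact sub_self _

variable (𝓤 : Levels G)

lemma shN1_mem_Z1 {y : G → permRep k U} (hy : y ∈ Z1 𝓤 (permRep k U)) :
    shN1 U y ∈ Z1 (𝓤.sub U) (Rep.trivial k ↥U k) := by
  have h1 : δ1 (permRep k U) y = 0 := hy.1
  refine ⟨?_, (coindPerm U).isLC_sh1 𝓤 hy.2⟩
  show δ1 (Rep.trivial k ↥U k) ((coindPerm U).sh1 y) = 0
  have h := (coindPerm (k := k) U).sh2_δ1 y
  rw [h1] at h
  exact h.symm

variable {𝓤}

lemma trN1_mem_Z1 (hU : 𝓤.IsOpen U) {χ : U → Rep.trivial k ↥U k}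
    (hχ : χ ∈ Z1 (𝓤.sub U) (Rep.trivial k ↥U k)) : trN1 U χ ∈ Z1 𝓤 (permRep k U) := by
  have h1 : δ1 (Rep.trivial k ↥U k) χ = 0 := hχ.1
  refine ⟨?_, (coindPerm U).isLC_tr1 𝓤 hU hχ.2⟩
  show δ1 (permRep k U) ((coindPerm U).tr1 χ) = 0
  have h := (coindPerm (k := k) U).δ1_tr1 χ
  rw [h]
  have h1' : δ1 (Rep.res U.subtype (Rep.trivial k G k)) χ = 0 := h1
  rw [h1']
  funext p
  funext x
  exact ((coindPerm (k := k) U).π_tr2 0 p x).trans (map_zero _)

/-- On cocycles, `trN1 (shN1 y) - y = δ⁰ (ho⁰ y)`. -/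
lemma trN1_shN1_sub {y : G → permRep k U} (hy : y ∈ Z1 𝓤 (permRep k U)) :
    trN1 U (shN1 U y) - y = δ0 (permRep k U) ((coindPerm U).ho0 y) := by
  have h1 : δ1 (permRep k U) y = 0 := hy.1
  have h := (coindPerm (k := k) U).tr1_sh1_sub y
  rw [h1] at h
  have h0 : (coindPerm (k := k) U).ho1 (0 : G × G → permRep k U) = 0 := by
    funext g
    funext x
    exact ((coindPerm (k := k) U).π_ho1 0 g x).trans (sub_self _)
  rw [h0, add_zero] at h
  exact h

/-- **Shapiro, injectivity in degree 1 for the coefficient module `k[G/U]`** (S1):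
a smooth cocycle `y` of `k[G/U]` with `y(u)(x₀) = 0` for all `u ∈ U` is a coboundary. -/
theorem shapiroN_inj1 {y : G → permRep k U} (hy : y ∈ Z1 𝓤 (permRep k U))
    (h : shN1 U y = 0) : y ∈ B1 (permRep k U) := by
  have h2 := trN1_shN1_sub U hy
  have h3 : trN1 U (shN1 U y) = 0 := by
    rw [h]
    funext g
    funext x
    rw [trN1_apply]
    rfl
  rw [h3, zero_sub] at h2
  refine ⟨-(coindPerm U).ho0 y, ?_⟩
  show δ0 (permRep k U) (-(coindPerm U).ho0 y) = y
  rw [map_neg, ← h2, neg_neg]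

/-- The coboundaries of the trivial module vanish. -/
lemma B1_trivial_eq_zero {H : Type} [Group H] {χ : H → Rep.trivial k H k}
    (h : χ ∈ B1 (Rep.trivial k H k)) : χ = 0 := by
  obtain ⟨a, rfl⟩ := h
  funext g
  show (Rep.trivial k H k).ρ g a - a = 0
  exact sub_self _

/-- (S1), in the form: `shN1 y ∈ B¹ ⇒ y ∈ B¹`. -/
theorem shapiroN_inj1' {y : G → permRep k U} (hy : y ∈ Z1 𝓤 (permRep k U))
    (h : shN1 U y ∈ B1 (Rep.trivial k ↥U k)) : y ∈ B1 (permRep k U) :=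
  shapiroN_inj1 U hy (B1_trivial_eq_zero h)

/-- Every smooth cocycle of `k[G/U]` is cohomologous to `trN1` of its Shapiro image. -/
theorem sub_trN1_shN1_mem_B1 {y : G → permRep k U} (hy : y ∈ Z1 𝓤 (permRep k U)) :
    y - trN1 U (shN1 U y) ∈ B1 (permRep k U) := by
  refine ⟨-(coindPerm U).ho0 y, ?_⟩
  show δ0 (permRep k U) (-(coindPerm U).ho0 y) = _
  rw [map_neg, ← trN1_shN1_sub U hy]
  abel

end Fermat.Agent.F4
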