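import Fermat.Agent.F4.Shapiro.Hyper
import Fermat.Agent.F4.Shapiro.Module
import Fermat.Agent.F4.HyperPair

/-!
# F4 / Shapiro / Cup : corestriction and the compatibility of Shapiro's lemma with the pairings

`U` open in `G`, `N = k[G/U]`, `K` a 2-term complex.

* `corT2 y = (tr y) ∪ 1` : the explicit corestriction `ZZ²(U, K) → ZZ²(G, K)`;
* `cupU (a, b) χ = ((u, u') ↦ χ(u') a(u), u ↦ χ(u) b)` : the pairing over `U` with `Hom(U, k)`;
* (K)  `cup1_tr_tr`  : `(tr z') ∪ (tr χ) = cor (z' ∪ χ)` on the nose;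
* (C1) `cup2_sub_corT2_sh_mem_BB2` : `z ∪ 1 ~ cor (sh z)`;
* (C2) `cup1_sub_corT2_cupU_mem_BB2` : `z ∪ y ~ cor (sh z ∪ sh y)`;
* (C3) `corT2_res_sub_mem_BB2` : `cor (res c) ~ [G : U] c`;
* `diagCx` : the diagonal `K → Hom(k[G/U], K)`.
-/

set_option autoImplicit false

open CategoryTheory groupCohomology

namespace Fermat.Agent.F4

variable {k G : Type} [CommRing k] [Group G]

section

variable (U : Subgroup G) [Fintype (G ⧸ U)] (K : Cx k G)

/-- The pairing over `U` of a total 1-cochain with a function `χ : U → k`. -/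
def cupU (z : T1 (K.res U.subtype)) (χ : U → Rep.trivial k ↥U k) : T2 (K.res U.subtype) :=
  (fun p => (χ p.2 : k) • z.1 p.1, fun u => (χ u : k) • z.2)

/-- The corestriction on total 2-cochains: `cor y = (tr y) ∪ 1`. -/
noncomputable def corT2 (y : T2 (K.res U.subtype)) : T2 K :=
  cup2 (permRep k U) K (trT2 U K y) (permOne U)

lemma corT2_fst_aux (a : U × U → Rep.res U.subtype K.K0) (b : U → Rep.res U.subtype K.K1)
    (p : G × G) :
    (corT2 U K (a, b)).1 p
      = ∑ x : G ⧸ U, K.K0.ρ (shSec U x) (a (shW U x p.1, shW U (p.1⁻¹ • x) p.2)) := by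
  show ((coindHom U K.K0).tr2 a p : permRep k U →ₗ[k] K.K0) (permOne U) = _
  rw [apply_permOne]
  exact Finset.sum_congr rfl fun x _ => (coindHom U K.K0).π_tr2 a p x

lemma corT2_snd_aux (a : U × U → Rep.res U.subtype K.K0) (b : U → Rep.res U.subtype K.K1)
    (g : G) :
    (corT2 U K (a, b)).2 g = ∑ x : G ⧸ U, K.K1.ρ (shSec U x) (b (shW U x g)) := by
  show ((coindHom U K.K1).tr1 b g : permRep k U →ₗ[k] K.K1) (permOne U) = _
  rw [apply_permOne]
  exact Finset.sum_congr rfl fun x _ => (coindHom U K.K1).π_tr1 b g x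

lemma corT2_add_aux (a a' : U × U → Rep.res U.subtype K.K0)
    (b b' : U → Rep.res U.subtype K.K1) :
    corT2 U K ((a, b) + (a', b')) = corT2 U K (a, b) + corT2 U K (a', b') := by
  refine Prod.ext ?_ ?_
  · funext p
    show (corT2 U K (a + a', b + b')).1 p = (corT2 U K (a, b)).1 p + (corT2 U K (a', b')).1 p
    rw [corT2_fst_aux, corT2_fst_aux, corT2_fst_aux, ← Finset.sum_add_distrib]
    exact Finset.sum_congr rfl fun x _ => map_add _ _ _
  · funext g
    show (corT2 U K (a + a', b + b')).2 g = (corT2 U K (a, b)).2 g + (corT2 U K (a', b')).2 g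
    rw [corT2_snd_aux, corT2_snd_aux, corT2_snd_aux, ← Finset.sum_add_distrib]
    exact Finset.sum_congr rfl fun x _ => map_add _ _ _

lemma corT2_smul_aux (r : k) (a : U × U → Rep.res U.subtype K.K0)
    (b : U → Rep.res U.subtype K.K1) :
    corT2 U K (r • (a, b)) = r • corT2 U K (a, b) := by
  refine Prod.ext ?_ ?_
  · funext p
    show (corT2 U K (r • a, r • b)).1 p = r • (corT2 U K (a, b)).1 p
    rw [corT2_fst_aux, corT2_fst_aux, Finset.smul_sum]
    exact Finset.sum_congr rfl fun x _ => map_smul _ _ _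
  · funext g
    show (corT2 U K (r • a, r • b)).2 g = r • (corT2 U K (a, b)).2 g
    rw [corT2_snd_aux, corT2_snd_aux, Finset.smul_sum]
    exact Finset.sum_congr rfl fun x _ => map_smul _ _ _

lemma corT2_add (y y' : T2 (K.res U.subtype)) :
    corT2 U K (y + y') = corT2 U K y + corT2 U K y' :=
  corT2_add_aux U K y.1 y'.1 y.2 y'.2

lemma corT2_smul (r : k) (y : T2 (K.res U.subtype)) : corT2 U K (r • y) = r • corT2 U K y :=
  corT2_smul_aux U K r y.1 y.2

/-- (K): `(tr z') ∪ (tr χ) = cor (z' ∪ χ)` on cochains. -/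
theorem cup1_tr_tr_aux (a : U → Rep.res U.subtype K.K0) (b : Rep.res U.subtype K.K1)
    (χ : U → Rep.trivial k ↥U k) :
    cup1 (permRep k U) K (trT1 U K (a, b)) (trN1 U χ) = corT2 U K (cupU U K (a, b) χ) := by
  refine Prod.ext ?_ ?_
  · funext p
    refine Eq.trans ?_ (corT2_fst_aux U K (fun q : U × U => (χ q.2 : k) • a q.1)
      (fun u : U => (χ u : k) • b) p).symm
    show ((coindHom U K.K0).lift (fun x => K.K0.ρ (shSec U x) (a (shW U x p.1)))
        : permRep k U →ₗ[k] K.K0) ((permRep k U).ρ p.1 (trN1 U χ p.2)) = _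
    rw [coindHom_lift_apply]
    refine Finset.sum_congr rfl fun x _ => ?_
    rw [permRep_ρ_apply, trN1_apply, map_smul]
  · funext g
    refine Eq.trans ?_ (corT2_snd_aux U K (fun q : U × U => (χ q.2 : k) • a q.1)
      (fun u : U => (χ u : k) • b) g).symm
    show ((coindHom U K.K1).lift (fun x => K.K1.ρ (shSec U x) b)
        : permRep k U →ₗ[k] K.K1) (trN1 U χ g) = _
    rw [coindHom_lift_apply]
    refine Finset.sum_congr rfl fun x _ => ?_
    rw [trN1_apply, map_smul]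

theorem cup1_tr_tr (z : T1 (K.res U.subtype)) (χ : U → Rep.trivial k ↥U k) :
    cup1 (permRep k U) K (trT1 U K z) (trN1 U χ) = corT2 U K (cupU U K z χ) :=
  cup1_tr_tr_aux U K z.1 z.2 χ

/-! ### The diagonal `K → Hom(k[G/U], K)` -/

/-- `a ↦ (φ ↦ (∑ₓ φ x) • a)`. -/
noncomputable def diagLin (A : Rep.{0} k G) : A →ₗ[k] (permRep k U →ₗ[k] A) where
  toFun a := (coindHom U A).lift fun _ => a
  map_add' a b := by
    apply (coindHom U A).ext
    intro x
    rw [map_add, Coind.π_lift, Coind.π_lift, Coind.π_lift]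
  map_smul' r a := by
    apply (coindHom U A).ext
    intro x
    rw [map_smul, Coind.π_lift, Coind.π_lift, RingHom.id_apply]

lemma π_diagLin (A : Rep.{0} k G) (a : A) (x : G ⧸ U) :
    (coindHom U A).π x (diagLin U A a) = a := (coindHom U A).π_lift _ x

lemma diagLin_permOne (A : Rep.{0} k G) (a : A) :
    (diagLin U A a : permRep k U →ₗ[k] A) (permOne U) = Fintype.card (G ⧸ U) • a := by
  rw [apply_permOne, Finset.sum_congr rfl (fun x _ => π_diagLin U A a x), Finset.sum_const,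
    Finset.card_univ]

/-- The diagonal morphism of complexes `K → Hom(k[G/U], K)`. -/
noncomputable def diagCx : CxHom K (homCx (permRep k U) K) where
  f0 := diagLin U K.K0
  f1 := diagLin U K.K1
  comm0 g a := by
    apply (coindHom U K.K0).ext
    intro x
    rw [Coind.π_ρ, π_diagLin, π_diagLin]
  comm1 g a := by
    apply (coindHom U K.K1).ext
    intro x
    rw [Coind.π_ρ, π_diagLin, π_diagLin]
  commd a := by
    apply (coindHom U K.K1).ext
    intro x
    rw [(coindHom_d U K).comm_π, π_diagLin, π_diagLin]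

lemma shT2_diagCx (c : T2 K) : shT2 U K ((diagCx U K).onT2 c) = resT2 U.subtype K c := by
  refine Prod.ext ?_ ?_
  · funext p
    exact π_diagLin U K.K0 _ _
  · funext u
    exact π_diagLin U K.K1 _ _

lemma cup2_diagCx (c : T2 K) :
    cup2 (permRep k U) K ((diagCx U K).onT2 c) (permOne U) = Fintype.card (G ⧸ U) • c := by
  refine Prod.ext ?_ ?_
  · funext p
    exact diagLin_permOne U K.K0 _
  · funext g
    exact diagLin_permOne U K.K1 _

/-! ### Cocycles, coboundaries, and the compatibilities up to coboundaries -/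

variable {𝓤 : Levels G}

lemma corT2_mem_ZZ2 (hU : 𝓤.IsOpen U) {y : T2 (K.res U.subtype)}
    (hy : y ∈ ZZ2 (𝓤.sub U) (K.res U.subtype)) : corT2 U K y ∈ ZZ2 𝓤 K :=
  cup2_mem_ZZ2 𝓤 (permRep k U) K (trT2_mem_ZZ2 U K hU hy) (permRep_ρ_permOne U)

lemma corT2_mem_BB2 (hU : 𝓤.IsOpen U) {y : T2 (K.res U.subtype)}
    (hy : y ∈ BB2 (𝓤.sub U) (K.res U.subtype)) : corT2 U K y ∈ BB2 𝓤 K :=
  cup2_mem_BB2 𝓤 K (permRep k U) (trT2_mem_BB2 U K hU hy) (permOne U) (permRep_ρ_permOne U)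

/-- (C1): `z ∪ 1 ~ cor (sh z)`. -/
theorem cup2_sub_corT2_sh_mem_BB2 (hU : 𝓤.IsOpen U) {z : T2 (homCx (permRep k U) K)}
    (hz : z ∈ ZZ2 𝓤 (homCx (permRep k U) K)) :
    cup2 (permRep k U) K z (permOne U) - corT2 U K (shT2 U K z) ∈ BB2 𝓤 K := by
  have h := trT2_shT2_sub U K hz
  obtain ⟨-, -, h3, -⟩ := (mem_ZZ2_iff 𝓤 _ z).1 hz
  have hB : trT2 U K (shT2 U K z) - z ∈ BB2 𝓤 (homCx (permRep k U) K) := by
    rw [h]
    exact (mem_BB2_iff _ _ _).2 ⟨_, (coindHom U K.K0).isLC_ho1 𝓤 hU h3, rfl⟩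
  have h2 := cup2_mem_BB2 𝓤 K (permRep k U) hB (permOne U) (permRep_ρ_permOne U)
  have e : cup2 (permRep k U) K z (permOne U) - corT2 U K (shT2 U K z)
      = -cup2 (permRep k U) K (trT2 U K (shT2 U K z) - z) (permOne U) := by
    show _ = -(cup2 (permRep k U) K (trT2 U K (shT2 U K z)) (permOne U)
      - cup2 (permRep k U) K z (permOne U))
    rw [neg_sub]
    rfl
  rw [e]
  exact (BB2 𝓤 K).neg_mem h2

/-- (C2): `z ∪ y ~ cor (sh z ∪ sh y)`. -/
theorem cup1_sub_corT2_cupU_mem_BB2 (hU : 𝓤.IsOpen U) {z : T1 (homCx (permRep k U) K)}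
    (hz : z ∈ ZZ1 𝓤 (homCx (permRep k U) K)) {y : G → permRep k U}
    (hy : y ∈ Z1 𝓤 (permRep k U)) :
    cup1 (permRep k U) K z y - corT2 U K (cupU U K (shT1 U K z) (shN1 U y)) ∈ BB2 𝓤 K := by
  have hfin : Module.Finite k (permRep k U) := permRep_finite 𝓤 hU
  have hsm : IsSmooth 𝓤 (permRep k U) := permRep_smooth 𝓤 hU
  rw [← cup1_tr_tr]
  have hz' := trT1_shT1_sub U K hz
  have hy' := trN1_shN1_sub U hy
  have htr : trT1 U K (shT1 U K z) ∈ ZZ1 𝓤 (homCx (permRep k U) K) :=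
    trT1_mem_ZZ1 U K hU (shT1_mem_ZZ1 U K 𝓤 hz)
  -- z ∪ y - tr sh z ∪ tr sh y = - (tr sh z - z) ∪ y - (tr sh z) ∪ (tr sh y - y)
  have e : cup1 (permRep k U) K z y
        - cup1 (permRep k U) K (trT1 U K (shT1 U K z)) (trN1 U (shN1 U y))
      = -cup1 (permRep k U) K (trT1 U K (shT1 U K z) - z) y
        - cup1 (permRep k U) K (trT1 U K (shT1 U K z)) (trN1 U (shN1 U y) - y) := by
    have e1 : cup1 (permRep k U) K (trT1 U K (shT1 U K z) - z) y
        = cup1 (permRep k U) K (trT1 U K (shT1 U K z)) y - cup1 (permRep k U) K z y := rfl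
    have e2 : cup1 (permRep k U) K (trT1 U K (shT1 U K z)) (trN1 U (shN1 U y) - y)
        = cup1 (permRep k U) K (trT1 U K (shT1 U K z)) (trN1 U (shN1 U y))
          - cup1 (permRep k U) K (trT1 U K (shT1 U K z)) y := by
      have := cup1_add_right K (permRep k U) (trT1 U K (shT1 U K z))
        (trN1 U (shN1 U y) - y) y
      rw [sub_add_cancel] at this
      rw [this]
      abel
    rw [e1, e2]
    abel
  rw [e, hz', hy']
  refine (BB2 𝓤 K).sub_mem ((BB2 𝓤 K).neg_mem ?_) ?_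
  · exact cup1_D0_mem_BB2 𝓤 K (permRep k U) _ hy
  · exact cup1_δ0_mem_BB2 𝓤 K (permRep k U) hsm htr _

/-- (C3): `cor (res c) ~ [G : U] c`. -/
theorem corT2_res_sub_mem_BB2 (hU : 𝓤.IsOpen U) {c : T2 K} (hc : c ∈ ZZ2 𝓤 K) :
    corT2 U K (resT2 U.subtype K c) - Fintype.card (G ⧸ U) • c ∈ BB2 𝓤 K := by
  have h1 := cup2_sub_corT2_sh_mem_BB2 U K hU ((diagCx U K).onT2_mem_ZZ2 𝓤 hc)
  rw [shT2_diagCx, cup2_diagCx] at h1
  have := (BB2 𝓤 K).neg_mem h1
  rwa [neg_sub] at this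

end

end Fermat.Agent.F4
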