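import Fermat.Agent.F4.Shapiro.Core

/-!
# F4 / Shapiro / Inst : the two coinduced modules attached to `k[G/U]`

* `coindHom U A` : `Hom_k(k[G/U], A)` is coinduced from `A` (components `f ↦ f(δ_x)`);
* `coindPerm U`  : `k[G/U]` itself is coinduced from the trivial module `k`
  (components `φ ↦ φ(x)`).
-/

set_option autoImplicit false

open CategoryTheory groupCohomology

namespace Fermat.Agent.F4

variable {k G : Type} [CommRing k] [Group G]

section

variable (U : Subgroup G)

open Classical in
/-- The indicator function of a coset, as an element of `k[G/U]`. -/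
noncomputable def permDelta (x : G ⧸ U) : permRep k U := Pi.single x (1 : k)

lemma permDelta_self (x : G ⧸ U) : (permDelta (k := k) U x : (G ⧸ U) → k) x = 1 := by
  classical
  unfold permDelta
  rw [Pi.single_eq_same]

lemma permDelta_of_ne {x y : G ⧸ U} (h : y ≠ x) :
    (permDelta (k := k) U x : (G ⧸ U) → k) y = 0 := by
  classical
  unfold permDelta
  rw [Pi.single_eq_of_ne h]

lemma permRep_ρ_permDelta (g : G) (x : G ⧸ U) :
    (permRep k U).ρ g (permDelta U x) = permDelta U (g • x) := by
  funext y
  rw [permRep_ρ_apply]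
  by_cases h : y = g • x
  · rw [h, inv_smul_smul, permDelta_self, permDelta_self]
  · rw [permDelta_of_ne U h, permDelta_of_ne U]
    intro h'
    exact h (inv_smul_eq_iff.mp h')

/-- The constant function `1`, the generator of the invariants of `k[G/U]`. -/
def permOne : permRep k U := fun _ => (1 : k)

lemma permRep_ρ_permOne (g : G) : (permRep k U).ρ g (permOne U) = permOne (k := k) U := rfl

/-- Invariant elements of `k[G/U]` are constant. -/
lemma permRep_invariant_eq (n : permRep k U) (hn : ∀ g : G, (permRep k U).ρ g n = n) :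
    n = (n : (G ⧸ U) → k) (shBase U) • permOne U := by
  funext x
  have h := congrFun (hn (shSec U x)) x
  rw [permRep_ρ_apply, shSec_inv_smul] at h
  show (n : (G ⧸ U) → k) x = (n : (G ⧸ U) → k) (shBase U) * 1
  rw [mul_one, ← h]

variable [Fintype (G ⧸ U)]

lemma permRep_eq_sum (φ : permRep k U) :
    φ = ∑ x : G ⧸ U, (φ : (G ⧸ U) → k) x • permDelta (k := k) U x := by
  funext y
  rw [Finset.sum_apply, Finset.sum_eq_single y]
  · show (φ : (G ⧸ U) → k) y = (φ : (G ⧸ U) → k) y * (permDelta (k := k) U y : (G ⧸ U) → k) y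
    rw [permDelta_self, mul_one]
  · intro x _ hx
    show (φ : (G ⧸ U) → k) x * (permDelta (k := k) U x : (G ⧸ U) → k) y = 0
    rw [permDelta_of_ne U (Ne.symm hx), mul_zero]
  · intro h
    exact absurd (Finset.mem_univ y) h

lemma permOne_eq_sum : (permOne U : permRep k U) = ∑ x : G ⧸ U, permDelta (k := k) U x := by
  have h := permRep_eq_sum U (permOne (k := k) U)
  simpa [permOne] using h

/-- `Hom_k(k[G/U], A)` is coinduced from `A`. -/
noncomputable def coindHom (A : Rep.{0} k G) : Coind U (homRep (permRep k U) A) A where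
  π x :=
    { toFun := fun f => (f : permRep k U →ₗ[k] A) (permDelta U x)
      map_add' := fun _ _ => rfl
      map_smul' := fun _ _ => rfl }
  π_ρ g x f := by
    show ((homRep (permRep k U) A).ρ g f : permRep k U →ₗ[k] A) (permDelta U x) = _
    rw [homRep_ρ_apply, permRep_ρ_permDelta]
    rfl
  lift F :=
    { toFun := fun φ => ∑ x : G ⧸ U, (φ : (G ⧸ U) → k) x • F x
      map_add' := fun φ ψ => by
        rw [← Finset.sum_add_distrib]
        refine Finset.sum_congr rfl fun x _ => ?_
        show ((φ : (G ⧸ U) → k) x + (ψ : (G ⧸ U) → k) x) • F x = _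
        rw [add_smul]
      map_smul' := fun a φ => by
        rw [RingHom.id_apply, Finset.smul_sum]
        refine Finset.sum_congr rfl fun x _ => ?_
        show (a * (φ : (G ⧸ U) → k) x) • F x = _
        rw [mul_smul] }
  π_lift F x := by
    show ∑ y : G ⧸ U, (permDelta (k := k) U x : (G ⧸ U) → k) y • F y = F x
    rw [Finset.sum_eq_single x]
    · rw [permDelta_self, one_smul]
    · intro y _ hy
      rw [permDelta_of_ne U hy, zero_smul]
    · intro h
      exact absurd (Finset.mem_univ x) h
  ext f f' h := by
    refine LinearMap.ext fun φ => ?_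
    rw [permRep_eq_sum U φ, map_sum, map_sum]
    refine Finset.sum_congr rfl fun x _ => ?_
    rw [map_smul, map_smul]
    congr 1
    exact h x

@[simp] lemma coindHom_π_apply (A : Rep.{0} k G) (x : G ⧸ U)
    (f : permRep k U →ₗ[k] A) : (coindHom U A).π x f = f (permDelta U x) := rfl

lemma coindHom_lift_apply (A : Rep.{0} k G) (F : (G ⧸ U) → A) (φ : permRep k U) :
    ((coindHom U A).lift F : permRep k U →ₗ[k] A) φ
      = ∑ x : G ⧸ U, (φ : (G ⧸ U) → k) x • F x := rfl

/-- Every element of `Hom_k(k[G/U], A)` evaluated at `1` is the sum of its components. -/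
lemma apply_permOne (A : Rep.{0} k G) (f : permRep k U →ₗ[k] A) :
    f (permOne U) = ∑ x : G ⧸ U, (coindHom U A).π x f := by
  rw [permOne_eq_sum, map_sum]
  rfl

end

/-- `k[G/U]` is coinduced from the trivial module `k`. -/
def coindPerm (U : Subgroup G) : Coind U (permRep k U) (Rep.trivial k G k) where
  π x :=
    { toFun := fun φ => (φ : (G ⧸ U) → k) x
      map_add' := fun _ _ => rfl
      map_smul' := fun _ _ => rfl }
  π_ρ _ _ _ := rfl
  lift F := F
  π_lift _ _ := rfl
  ext _ _ h := funext h

@[simp] lemma coindPerm_π_apply (U : Subgroup G) (x : G ⧸ U) (φ : permRep k U) :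
    (coindPerm (k := k) U).π x φ = (φ : (G ⧸ U) → k) x := rfl

/-- The differential of `Hom(k[G/U], K)` is a morphism of coinduced modules. -/
lemma coindHom_d (U : Subgroup G) [Fintype (G ⧸ U)] (K : Cx k G) :
    CoindHom (coindHom U K.K0) (coindHom U K.K1) (homCx (permRep k U) K).d K.d where
  comm_π _ _ := rfl
  comm_ρ := K.comm

end Fermat.Agent.F4
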